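import Fermat.Agent.LT.H470.Mobius

/-!
# Row LT, tower A2, pre-leaf ARCH-MVP (helper470): the mean-value property in Iwasawa coordinates

Mathlib only.  Consumer forms of `frameMVP470`, in the shape of the bridge
`Fermat.Agent.LT.H556.T0.meanValueComplex_iff_upper` (helper556): the Euler element
`E = rotZ α * rotY β * torus d` is replaced by the upper triangular factor `[[y, x], [0, 1]]` of
its Iwasawa decomposition, `y = 1 / (|E₁₀|² + |E₁₁|²)`, `x = (E₀₀ E̅₁₀ + E₀₁ E̅₁₁) / (|E₁₀|² + |E₁₁|²)`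
(`= T0.iwY E`, `T0.iwX E`).

* `jpt_mul_congr470` : `jpt (γ * M)` depends only on `jpt M`;
* `frameMVP_upper470` : for `Ψ M = f (jpt M)`, `f` a solution (`EigenData470`), `det γ ≠ 0`, `d > 0`:
  `∫ α in 0..2π, ∫ β in 0..π, Ψ (γ * [[y, x], [0, 1]]) * sin β = 4π (d / sinh d) * Ψ γ`.
-/

set_option autoImplicit false
set_option linter.unusedSimpArgs false
set_option linter.unnecessarySeqFocus false

open Real ComplexConjugate

noncomputable section

namespace Fermat.Agent.LT.H470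

/-- `jpt (γ * M)` depends only on `jpt M`. -/
def Congr470 (γ : Matrix (Fin 2) (Fin 2) ℂ) : Prop :=
  γ.det ≠ 0 ∧ ∀ M M' : Matrix (Fin 2) (Fin 2) ℂ, M.det ≠ 0 → M'.det ≠ 0 → jpt M = jpt M' →
    jpt (γ * M) = jpt (γ * M')

theorem det_mul_ne470 {γ M : Matrix (Fin 2) (Fin 2) ℂ} (hγ : γ.det ≠ 0) (hM : M.det ≠ 0) :
    (γ * M).det ≠ 0 := by
  rw [Matrix.det_mul]
  exact mul_ne_zero hγ hM

theorem congr_one470 : Congr470 1 :=
  ⟨by simp, fun M M' _ _ h => by simpa using h⟩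

theorem congr_upper470 {γ : Matrix (Fin 2) (Fin 2) ℂ} (h : Congr470 γ) (a b : ℂ) (ha : a ≠ 0) :
    Congr470 (!![a, b; 0, 1] * γ) := by
  refine ⟨?_, ?_⟩
  · rw [Matrix.det_mul, Matrix.det_fin_two_of]
    simpa using mul_ne_zero ha h.1
  · intro M M' hM hM' hjj
    rw [Matrix.mul_assoc, Matrix.mul_assoc, jpt_upper470 a b (det_mul_ne470 h.1 hM),
      jpt_upper470 a b (det_mul_ne470 h.1 hM'), h.2 M M' hM hM' hjj]

theorem congr_inv470 {γ : Matrix (Fin 2) (Fin 2) ℂ} (h : Congr470 γ) :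
    Congr470 (!![0, -1; 1, 0] * γ) := by
  refine ⟨?_, ?_⟩
  · rw [Matrix.det_mul, Matrix.det_fin_two_of]
    simpa using h.1
  · intro M M' hM hM' hjj
    rw [Matrix.mul_assoc, Matrix.mul_assoc, jpt_inv470 (det_mul_ne470 h.1 hM),
      jpt_inv470 (det_mul_ne470 h.1 hM'), h.2 M M' hM hM' hjj]

theorem congr_smul470 {γ : Matrix (Fin 2) (Fin 2) ℂ} (h : Congr470 γ) (l : ℂ) (hl : l ≠ 0) :
    Congr470 (l • γ) := by
  refine ⟨?_, ?_⟩
  · rw [Matrix.det_smul]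
    simpa using mul_ne_zero (pow_ne_zero 2 hl) h.1
  · intro M M' hM hM' hjj
    rw [Matrix.smul_mul, Matrix.smul_mul, jpt_smul470 l hl (det_mul_ne470 h.1 hM),
      jpt_smul470 l hl (det_mul_ne470 h.1 hM'), h.2 M M' hM hM' hjj]

/-- **`jpt (γ * M)` depends only on `jpt M`** (the Möbius action of `γ` on `ℍ³`). -/
theorem jpt_mul_congr470 {γ M M' : Matrix (Fin 2) (Fin 2) ℂ} (hγ : γ.det ≠ 0) (hM : M.det ≠ 0)
    (hM' : M'.det ≠ 0) (h : jpt M = jpt M') : jpt (γ * M) = jpt (γ * M') := by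
  have hdet := hγ
  rw [Matrix.det_fin_two] at hdet
  suffices hC : Congr470 γ from hC.2 M M' hM hM' h
  by_cases hc : γ 1 0 = 0
  · have he : γ 1 1 ≠ 0 := by
      intro he; apply hdet; rw [hc, he]; ring
    have ha : γ 0 0 ≠ 0 := by
      intro ha; apply hdet; rw [hc, ha]; ring
    have hG := congr_smul470 (congr_upper470 congr_one470 (γ 0 0 / γ 1 1) (γ 0 1 / γ 1 1)
      (div_ne_zero ha he)) (γ 1 1) he
    have heq : γ 1 1 • (!![γ 0 0 / γ 1 1, γ 0 1 / γ 1 1; 0, 1]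
        * (1 : Matrix (Fin 2) (Fin 2) ℂ)) = γ := by
      ext i j
      fin_cases i <;> fin_cases j <;> simp [hc] <;> field_simp
    rw [heq] at hG
    exact hG
  · have hδ : (γ 0 0 * γ 1 1 - γ 0 1 * γ 1 0) / γ 1 0 ^ 2 ≠ 0 :=
      div_ne_zero hdet (pow_ne_zero 2 hc)
    have hG := congr_smul470 (congr_upper470 (congr_upper470 (congr_inv470
      (congr_upper470 congr_one470 1 (γ 1 1 / γ 1 0) one_ne_zero))
      ((γ 0 0 * γ 1 1 - γ 0 1 * γ 1 0) / γ 1 0 ^ 2) 0 hδ) 1 (γ 0 0 / γ 1 0) one_ne_zero)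
      (γ 1 0) hc
    have heq : γ 1 0 • (!![1, γ 0 0 / γ 1 0; 0, 1]
        * (!![(γ 0 0 * γ 1 1 - γ 0 1 * γ 1 0) / γ 1 0 ^ 2, 0; 0, 1]
          * (!![0, -1; 1, 0] * (!![1, γ 1 1 / γ 1 0; 0, 1]
            * (1 : Matrix (Fin 2) (Fin 2) ℂ))))) = γ := by
      ext i j
      fin_cases i <;> fin_cases j <;>
        simp [Matrix.mul_apply, Fin.sum_univ_two] <;> field_simp <;> ring
    rw [heq] at hG
    exact hG

/-! ## Upper triangular representatives -/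

/-- `[[y, x], [0, 1]] • j = (x, y)` for `y > 0`. -/
theorem jpt_upperMat470 (x : ℂ) {y : ℝ} (hy : 0 < y) :
    jpt !![(y : ℂ), x; 0, 1] = (x.re, x.im, y) := by
  simp [jpt, jptE, jN, abs_of_pos hy]

theorem det_upperMat470 (x : ℂ) {y : ℝ} (hy : 0 < y) :
    (!![(y : ℂ), x; 0, 1] : Matrix (Fin 2) (Fin 2) ℂ).det ≠ 0 := by
  rw [Matrix.det_fin_two_of]
  simpa using hy.ne'

/-- The Iwasawa coordinate `x` of the Euler element (`= T0.iwX (rotZ α * rotY β * torus d)`). -/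
def eulerX470 (α β d : ℝ) : ℂ :=
  (Rm470 α β d 0 0 * star (Rm470 α β d 1 0) + Rm470 α β d 0 1 * star (Rm470 α β d 1 1))
    / ((Complex.normSq (Rm470 α β d 1 0) + Complex.normSq (Rm470 α β d 1 1) : ℝ) : ℂ)

/-- The Iwasawa coordinate `y` of the Euler element (`= T0.iwY (rotZ α * rotY β * torus d)`). -/
def eulerY470 (α β d : ℝ) : ℝ :=
  (Complex.normSq (Rm470 α β d 1 0) + Complex.normSq (Rm470 α β d 1 1))⁻¹

theorem euler_eq_polar470 (α β d : ℝ) :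
    ((eulerX470 α β d).re, (eulerX470 α β d).im, eulerY470 α β d) = polarPt d β α := by
  have h := jpt_Rm470 α β d
  have hdet : Rm470 α β d 0 0 * Rm470 α β d 1 1 - Rm470 α β d 0 1 * Rm470 α β d 1 0 = 1 := by
    rw [← Matrix.det_fin_two]; exact det_Rm470 α β d
  rw [← h]
  unfold jpt jptE eulerX470 eulerY470 jN
  rw [hdet]
  simp only [Complex.star_def, norm_one, one_div]
  rw [add_comm (Rm470 α β d 0 0 * _)]

theorem eulerY_pos470 (α β d : ℝ) : 0 < eulerY470 α β d := by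
  have h := congrArg (fun p : E3 => p.2.2) (euler_eq_polar470 α β d)
  simp only at h
  rw [h]
  exact polarPt_height_pos470 d β α

/-- **The mean-value property in Iwasawa coordinates**, for a function `Ψ` on `GL₂(ℂ)` of the form
`Ψ M = f (M • j)`, `f` a solution of the hyperbolic Laplace equation. -/
theorem frameMVP_upper470 {f : E3 → ℂ} {f' : E3 → E3 →L[ℝ] ℂ} {f'' : E3 → E3 →L[ℝ] E3 →L[ℝ] ℂ}
    (hf : EigenData470 f f' f'') (Ψ : Matrix (Fin 2) (Fin 2) ℂ → ℂ)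
    (hΨ : ∀ M : Matrix (Fin 2) (Fin 2) ℂ, M.det ≠ 0 → Ψ M = f (jpt M))
    (γ : Matrix (Fin 2) (Fin 2) ℂ) (hγ : γ.det ≠ 0) {d : ℝ} (hd : 0 < d) :
    ∫ α in (0 : ℝ)..(2 * π), ∫ β in (0 : ℝ)..π,
        Ψ (γ * !![((eulerY470 α β d : ℝ) : ℂ), eulerX470 α β d; 0, 1]) * ((sin β : ℝ) : ℂ)
      = ((4 * π * (d / sinh d) : ℝ) : ℂ) * Ψ γ := by
  rw [hΨ γ hγ, ← frameMVP470 γ hγ f f' f'' hf d hd]
  congr 1
  funext α
  congr 1
  funext β
  have hU := det_upperMat470 (eulerX470 α β d) (eulerY_pos470 α β d)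
  have hR : (Rm470 α β d).det ≠ 0 := by rw [det_Rm470]; exact one_ne_zero
  rw [hΨ _ (det_mul_ne470 hγ hU)]
  congr 2
  apply jpt_mul_congr470 hγ hU hR
  rw [jpt_upperMat470 _ (eulerY_pos470 α β d), euler_eq_polar470, jpt_Rm470]

/-- The same with the Euler elements themselves. -/
theorem frameMVP_euler470 {f : E3 → ℂ} {f' : E3 → E3 →L[ℝ] ℂ} {f'' : E3 → E3 →L[ℝ] E3 →L[ℝ] ℂ}
    (hf : EigenData470 f f' f'') (Ψ : Matrix (Fin 2) (Fin 2) ℂ → ℂ)
    (hΨ : ∀ M : Matrix (Fin 2) (Fin 2) ℂ, M.det ≠ 0 → Ψ M = f (jpt M))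
    (γ : Matrix (Fin 2) (Fin 2) ℂ) (hγ : γ.det ≠ 0) {d : ℝ} (hd : 0 < d) :
    ∫ α in (0 : ℝ)..(2 * π), ∫ β in (0 : ℝ)..π,
        Ψ (γ * (rotZ470 α * rotY470 β * torus470 d)) * ((sin β : ℝ) : ℂ)
      = ((4 * π * (d / sinh d) : ℝ) : ℂ) * Ψ γ := by
  rw [hΨ γ hγ, ← frameMVP470 γ hγ f f' f'' hf d hd]
  congr 1
  funext α
  congr 1
  funext β
  have hR : (Rm470 α β d).det ≠ 0 := by rw [det_Rm470]; exact one_ne_zero
  have h := hΨ _ (det_mul_ne470 hγ hR)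
  unfold Rm470 at h ⊢
  rw [h]

/-! ## A constructor of `EigenData470` -/

theorem isOpen_upper470 : IsOpen {p : E3 | 0 < p.2.2} :=
  isOpen_lt continuous_const (continuous_snd.comp continuous_snd)

/-- A `C²` function on the upper half-space which satisfies the hyperbolic Laplace equation (with
`fderiv`) is an `EigenData470`. -/
theorem eigenData_of_contDiffOn470 {f : E3 → ℂ} (hf : ContDiffOn ℝ 2 f {p : E3 | 0 < p.2.2})
    (hpde : ∀ p : E3, 0 < p.2.2 →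
      ((p.2.2 : ℝ) : ℂ) ^ 2 * (fderiv ℝ (fderiv ℝ f) p e1 e1 + fderiv ℝ (fderiv ℝ f) p e2 e2
        + fderiv ℝ (fderiv ℝ f) p e3 e3) - ((p.2.2 : ℝ) : ℂ) * fderiv ℝ f p e3 = -f p) :
    EigenData470 f (fderiv ℝ f) (fderiv ℝ (fderiv ℝ f)) where
  d1 := fun p hp =>
    ((hf.contDiffAt (isOpen_upper470.mem_nhds hp)).differentiableAt (by norm_num)).hasFDerivAt
  d2 := fun p hp =>
    (((hf.contDiffAt (isOpen_upper470.mem_nhds hp)).fderiv_right (m := 1)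
      (by norm_num)).differentiableAt (by norm_num)).hasFDerivAt
  cont := fun p hp =>
    ((((hf.contDiffAt (isOpen_upper470.mem_nhds hp)).fderiv_right (m := 1)
      (by norm_num)).fderiv_right (m := 0) (by norm_num)).continuousAt).continuousWithinAt
  pde := hpde

end Fermat.Agent.LT.H470
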