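import Fermat.Agent.LT.H470.Polar

/-!
# Row LT, tower A2, pre-leaf ARCH-MVP (helper470): eigenfunctions in polar coordinates

Mathlib only.  For `f` twice differentiable on the upper half-space `{y > 0}` of `ℝ³` with
`y² (f₁₁ + f₂₂ + f₃₃) - y f₃ = -f` (the hyperbolic Laplace equation of `ℍ³` with eigenvalue `-1`,
i.e. spherical parameter `0`), the function `F = f ∘ polarPt` satisfies

    sinh² d sin² β (F_dd + F) + 2 cosh d sinh d sin² β F_d + sin β (sin β F_ββ + cos β F_β) + F_αα = 0.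
-/

set_option autoImplicit false

open Real

noncomputable section

namespace Fermat.Agent.LT.H470

/-- Coordinate space of the upper half-space model: `(x₁, x₂, y)`. -/
abbrev E3 : Type := ℝ × ℝ × ℝ

/-- Basis vectors. -/
def e1 : E3 := (1, 0, 0)
/-- Basis vectors. -/
def e2 : E3 := (0, 1, 0)
/-- Basis vectors. -/
def e3 : E3 := (0, 0, 1)

theorem vec_decomp470 (v : E3) : v = v.1 • e1 + v.2.1 • e2 + v.2.2 • e3 := by
  ext <;> simp [e1, e2, e3]

theorem clm3_470 (L : E3 →L[ℝ] ℂ) (v : E3) :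
    L v = (v.1 : ℂ) * L e1 + (v.2.1 : ℂ) * L e2 + (v.2.2 : ℂ) * L e3 := by
  conv_lhs => rw [vec_decomp470 v]
  simp only [map_add, map_smul, Complex.real_smul]

theorem clm33_470 (B : E3 →L[ℝ] E3 →L[ℝ] ℂ) (v w : E3) :
    B v w =
      (v.1 : ℂ) * (w.1 : ℂ) * B e1 e1 + (v.1 : ℂ) * (w.2.1 : ℂ) * B e1 e2
        + (v.1 : ℂ) * (w.2.2 : ℂ) * B e1 e3
        + (v.2.1 : ℂ) * (w.1 : ℂ) * B e2 e1 + (v.2.1 : ℂ) * (w.2.1 : ℂ) * B e2 e2
        + (v.2.1 : ℂ) * (w.2.2 : ℂ) * B e2 e3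
        + (v.2.2 : ℂ) * (w.1 : ℂ) * B e3 e1 + (v.2.2 : ℂ) * (w.2.1 : ℂ) * B e3 e2
        + (v.2.2 : ℂ) * (w.2.2 : ℂ) * B e3 e3 := by
  have h : ∀ e : E3, B v e = (v.1 : ℂ) * B e1 e + (v.2.1 : ℂ) * B e2 e + (v.2.2 : ℂ) * B e3 e := by
    intro e
    have := clm3_470 (B.flip e) v
    simpa using this
  rw [clm3_470 (B v) w, h e1, h e2, h e3]
  ring

/-- The data of a twice differentiable solution of the hyperbolic Laplace equation
`Δ f = -f` on the upper half-space `{y > 0}` of `ℝ³`, with explicit derivative fields. -/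
structure EigenData470 (f : E3 → ℂ) (f' : E3 → E3 →L[ℝ] ℂ)
    (f'' : E3 → E3 →L[ℝ] E3 →L[ℝ] ℂ) : Prop where
  d1 : ∀ p : E3, 0 < p.2.2 → HasFDerivAt f (f' p) p
  d2 : ∀ p : E3, 0 < p.2.2 → HasFDerivAt f' (f'' p) p
  cont : ContinuousOn f'' {p : E3 | 0 < p.2.2}
  pde : ∀ p : E3, 0 < p.2.2 →
    ((p.2.2 : ℝ) : ℂ) ^ 2 * (f'' p e1 e1 + f'' p e2 e2 + f'' p e3 e3)
      - ((p.2.2 : ℝ) : ℂ) * f' p e3 = -f p

section Fields

variable (f : E3 → ℂ) (f' : E3 → E3 →L[ℝ] ℂ) (f'' : E3 → E3 →L[ℝ] E3 →L[ℝ] ℂ)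

/-- `F = f ∘ polarPt`. -/
def F0 (d β α : ℝ) : ℂ := f (polarPt d β α)
/-- `∂F/∂d`. -/
def Fd (d β α : ℝ) : ℂ := f' (polarPt d β α) (Pd d β α)
/-- `∂²F/∂d²`. -/
def Fdd (d β α : ℝ) : ℂ :=
  f'' (polarPt d β α) (Pd d β α) (Pd d β α) + f' (polarPt d β α) (Pdd d β α)
/-- `∂F/∂β`. -/
def Fb (d β α : ℝ) : ℂ := f' (polarPt d β α) (Pb d β α)
/-- `∂²F/∂β²`. -/
def Fbb (d β α : ℝ) : ℂ :=
  f'' (polarPt d β α) (Pb d β α) (Pb d β α) + f' (polarPt d β α) (Pbb d β α)
/-- `∂F/∂α`. -/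
def Fa (d β α : ℝ) : ℂ := f' (polarPt d β α) (Pa d β α)
/-- `∂²F/∂α²`. -/
def Faa (d β α : ℝ) : ℂ :=
  f'' (polarPt d β α) (Pa d β α) (Pa d β α) + f' (polarPt d β α) (Paa d β α)

variable {f f' f''}

theorem hasDerivAt_F0_d470 (h : EigenData470 f f' f'') (d β α : ℝ) :
    HasDerivAt (fun t => F0 f t β α) (Fd f' d β α) d :=
  (h.d1 _ (polarPt_height_pos470 d β α)).comp_hasDerivAt d (hasDerivAt_polarPt_d470 d β α)

theorem hasDerivAt_Fd_d470 (h : EigenData470 f f' f'') (d β α : ℝ) :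
    HasDerivAt (fun t => Fd f' t β α) (Fdd f' f'' d β α) d := by
  have h1 : HasDerivAt (fun t => f' (polarPt t β α)) (f'' (polarPt d β α) (Pd d β α)) d :=
    (h.d2 _ (polarPt_height_pos470 d β α)).comp_hasDerivAt d (hasDerivAt_polarPt_d470 d β α)
  have h2 : HasDerivAt (fun t => Pd t β α) (Pdd d β α) d := hasDerivAt_Pd_d470 d β α
  exact h1.clm_apply h2

theorem hasDerivAt_F0_b470 (h : EigenData470 f f' f'') (d β α : ℝ) :
    HasDerivAt (fun t => F0 f d t α) (Fb f' d β α) β :=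
  (h.d1 _ (polarPt_height_pos470 d β α)).comp_hasDerivAt β (hasDerivAt_polarPt_b470 d β α)

theorem hasDerivAt_Fb_b470 (h : EigenData470 f f' f'') (d β α : ℝ) :
    HasDerivAt (fun t => Fb f' d t α) (Fbb f' f'' d β α) β := by
  have h1 : HasDerivAt (fun t => f' (polarPt d t α)) (f'' (polarPt d β α) (Pb d β α)) β :=
    (h.d2 _ (polarPt_height_pos470 d β α)).comp_hasDerivAt β (hasDerivAt_polarPt_b470 d β α)
  have h2 : HasDerivAt (fun t => Pb d t α) (Pbb d β α) β := hasDerivAt_Pb_b470 d β α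
  exact h1.clm_apply h2

theorem hasDerivAt_F0_a470 (h : EigenData470 f f' f'') (d β α : ℝ) :
    HasDerivAt (fun t => F0 f d β t) (Fa f' d β α) α :=
  (h.d1 _ (polarPt_height_pos470 d β α)).comp_hasDerivAt α (hasDerivAt_polarPt_a470 d β α)

theorem hasDerivAt_Fa_a470 (h : EigenData470 f f' f'') (d β α : ℝ) :
    HasDerivAt (fun t => Fa f' d β t) (Faa f' f'' d β α) α := by
  have h1 : HasDerivAt (fun t => f' (polarPt d β t)) (f'' (polarPt d β α) (Pa d β α)) α :=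
    (h.d2 _ (polarPt_height_pos470 d β α)).comp_hasDerivAt α (hasDerivAt_polarPt_a470 d β α)
  have h2 : HasDerivAt (fun t => Pa d β t) (Paa d β α) α := hasDerivAt_Pa_a470 d β α
  exact h1.clm_apply h2

/-! ## Continuity of the fields in `(d, β, α)` -/

theorem EigenData470.continuousOn_f (h : EigenData470 f f' f'') :
    ContinuousOn f {p : E3 | 0 < p.2.2} :=
  fun p hp => (h.d1 p hp).continuousAt.continuousWithinAt

theorem EigenData470.continuousOn_f' (h : EigenData470 f f' f'') :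
    ContinuousOn f' {p : E3 | 0 < p.2.2} :=
  fun p hp => (h.d2 p hp).continuousAt.continuousWithinAt

theorem polarPt_mem470 (q : ℝ × ℝ × ℝ) :
    polarPt q.1 q.2.1 q.2.2 ∈ {p : E3 | 0 < p.2.2} :=
  polarPt_height_pos470 _ _ _

theorem continuous_F0_470 (h : EigenData470 f f' f'') :
    Continuous (fun q : ℝ × ℝ × ℝ => F0 f q.1 q.2.1 q.2.2) :=
  h.continuousOn_f.comp_continuous continuous_polarPt470 polarPt_mem470

theorem continuous_f'_polar470 (h : EigenData470 f f' f'') :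
    Continuous (fun q : ℝ × ℝ × ℝ => f' (polarPt q.1 q.2.1 q.2.2)) :=
  h.continuousOn_f'.comp_continuous continuous_polarPt470 polarPt_mem470

theorem continuous_f''_polar470 (h : EigenData470 f f' f'') :
    Continuous (fun q : ℝ × ℝ × ℝ => f'' (polarPt q.1 q.2.1 q.2.2)) :=
  h.cont.comp_continuous continuous_polarPt470 polarPt_mem470

theorem continuous_Fd_470 (h : EigenData470 f f' f'') :
    Continuous (fun q : ℝ × ℝ × ℝ => Fd f' q.1 q.2.1 q.2.2) :=
  (continuous_f'_polar470 h).clm_apply continuous_Pd470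

theorem continuous_Fdd_470 (h : EigenData470 f f' f'') :
    Continuous (fun q : ℝ × ℝ × ℝ => Fdd f' f'' q.1 q.2.1 q.2.2) :=
  (((continuous_f''_polar470 h).clm_apply continuous_Pd470).clm_apply continuous_Pd470).add
    ((continuous_f'_polar470 h).clm_apply continuous_Pdd470)

theorem continuous_Fb_470 (h : EigenData470 f f' f'') :
    Continuous (fun q : ℝ × ℝ × ℝ => Fb f' q.1 q.2.1 q.2.2) :=
  (continuous_f'_polar470 h).clm_apply continuous_Pb470

theorem continuous_Fbb_470 (h : EigenData470 f f' f'') :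
    Continuous (fun q : ℝ × ℝ × ℝ => Fbb f' f'' q.1 q.2.1 q.2.2) :=
  (((continuous_f''_polar470 h).clm_apply continuous_Pb470).clm_apply continuous_Pb470).add
    ((continuous_f'_polar470 h).clm_apply continuous_Pbb470)

theorem continuous_Fa_470 (h : EigenData470 f f' f'') :
    Continuous (fun q : ℝ × ℝ × ℝ => Fa f' q.1 q.2.1 q.2.2) :=
  (continuous_f'_polar470 h).clm_apply continuous_Pa470

theorem continuous_Faa_470 (h : EigenData470 f f' f'') :
    Continuous (fun q : ℝ × ℝ × ℝ => Faa f' f'' q.1 q.2.1 q.2.2) :=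
  (((continuous_f''_polar470 h).clm_apply continuous_Pa470).clm_apply continuous_Pa470).add
    ((continuous_f'_polar470 h).clm_apply continuous_Paa470)

end Fields

/-! ## The algebraic identity -/

set_option maxHeartbeats 1600000 in
theorem polar_alg470 (C S c s ca sa D A11 A12 A13 A21 A22 A23 A31 A32 A33 B1 B2 B3 F : ℂ)
    (hC : C ^ 2 = S ^ 2 + 1) (hs : s ^ 2 + c ^ 2 = 1) (ha : sa ^ 2 + ca ^ 2 = 1)
    (hD : D = C - S * c) (hD0 : D ≠ 0)
    (hpde : (1 / D) ^ 2 * (A11 + A22 + A33) - (1 / D) * B3 = -F) :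
    S ^ 2 * s ^ 2 *
        ((A11 * (s * ca / D ^ 2) * (s * ca / D ^ 2) + A12 * (s * ca / D ^ 2) * (s * sa / D ^ 2)
          + A13 * (s * ca / D ^ 2) * (-(S - C * c) / D ^ 2)
          + A21 * (s * sa / D ^ 2) * (s * ca / D ^ 2) + A22 * (s * sa / D ^ 2) * (s * sa / D ^ 2)
          + A23 * (s * sa / D ^ 2) * (-(S - C * c) / D ^ 2)
          + A31 * (-(S - C * c) / D ^ 2) * (s * ca / D ^ 2)
          + A32 * (-(S - C * c) / D ^ 2) * (s * sa / D ^ 2)
          + A33 * (-(S - C * c) / D ^ 2) * (-(S - C * c) / D ^ 2))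
          + (B1 * (-2 * s * ca * (S - C * c) / D ^ 3) + B2 * (-2 * s * sa * (S - C * c) / D ^ 3)
            + B3 * (-1 / D + 2 * (S - C * c) ^ 2 / D ^ 3)) + F)
      + 2 * C * S * s ^ 2 *
          (B1 * (s * ca / D ^ 2) + B2 * (s * sa / D ^ 2) + B3 * (-(S - C * c) / D ^ 2))
      + s * (s *
          ((A11 * (S * ca * (C * c - S) / D ^ 2) * (S * ca * (C * c - S) / D ^ 2)
            + A12 * (S * ca * (C * c - S) / D ^ 2) * (S * sa * (C * c - S) / D ^ 2)
            + A13 * (S * ca * (C * c - S) / D ^ 2) * (-(S * s) / D ^ 2)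
            + A21 * (S * sa * (C * c - S) / D ^ 2) * (S * ca * (C * c - S) / D ^ 2)
            + A22 * (S * sa * (C * c - S) / D ^ 2) * (S * sa * (C * c - S) / D ^ 2)
            + A23 * (S * sa * (C * c - S) / D ^ 2) * (-(S * s) / D ^ 2)
            + A31 * (-(S * s) / D ^ 2) * (S * ca * (C * c - S) / D ^ 2)
            + A32 * (-(S * s) / D ^ 2) * (S * sa * (C * c - S) / D ^ 2)
            + A33 * (-(S * s) / D ^ 2) * (-(S * s) / D ^ 2))
            + (B1 * (S * ca * (-(s * C * D) - 2 * S * s * (C * c - S)) / D ^ 3)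
              + B2 * (S * sa * (-(s * C * D) - 2 * S * s * (C * c - S)) / D ^ 3)
              + B3 * (-(S * c) / D ^ 2 + 2 * S ^ 2 * s ^ 2 / D ^ 3)))
          + c * (B1 * (S * ca * (C * c - S) / D ^ 2) + B2 * (S * sa * (C * c - S) / D ^ 2)
              + B3 * (-(S * s) / D ^ 2)))
      + ((A11 * (-(S * s * sa / D)) * (-(S * s * sa / D))
          + A12 * (-(S * s * sa / D)) * (S * s * ca / D)
          + A21 * (S * s * ca / D) * (-(S * s * sa / D))
          + A22 * (S * s * ca / D) * (S * s * ca / D))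
          + (B1 * (-(S * s * ca / D)) + B2 * (-(S * s * sa / D)))) = 0 := by
  have hF : F = -((1 / D) ^ 2 * (A11 + A22 + A33) - (1 / D) * B3) := by rw [hpde]; ring
  subst hF
  subst hD
  field_simp
  grind

/-- **The hyperbolic Laplace equation in geodesic polar coordinates** (multiplied by
`sinh² d sin² β`, so that it holds at every `(d, β, α)`). -/
theorem polar_pde470 {f : E3 → ℂ} {f' : E3 → E3 →L[ℝ] ℂ} {f'' : E3 → E3 →L[ℝ] E3 →L[ℝ] ℂ}
    (h : EigenData470 f f' f'') (d β α : ℝ) :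
    ((sinh d : ℝ) : ℂ) ^ 2 * ((sin β : ℝ) : ℂ) ^ 2 * (Fdd f' f'' d β α + F0 f d β α)
      + 2 * ((cosh d : ℝ) : ℂ) * ((sinh d : ℝ) : ℂ) * ((sin β : ℝ) : ℂ) ^ 2 * Fd f' d β α
      + ((sin β : ℝ) : ℂ) *
          (((sin β : ℝ) : ℂ) * Fbb f' f'' d β α + ((cos β : ℝ) : ℂ) * Fb f' d β α)
      + Faa f' f'' d β α = 0 := by
  have hpde := h.pde (polarPt d β α) (polarPt_height_pos470 d β α)
  have hD0 : ((pden d β : ℝ) : ℂ) ≠ 0 := by exact_mod_cast pden_ne470 d β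
  have hC : ((cosh d : ℝ) : ℂ) ^ 2 = ((sinh d : ℝ) : ℂ) ^ 2 + 1 := by
    exact_mod_cast Real.cosh_sq d
  have hs : ((sin β : ℝ) : ℂ) ^ 2 + ((cos β : ℝ) : ℂ) ^ 2 = 1 := by
    exact_mod_cast Real.sin_sq_add_cos_sq β
  have ha : ((sin α : ℝ) : ℂ) ^ 2 + ((cos α : ℝ) : ℂ) ^ 2 = 1 := by
    exact_mod_cast Real.sin_sq_add_cos_sq α
  have hD : ((pden d β : ℝ) : ℂ) = ((cosh d : ℝ) : ℂ) - ((sinh d : ℝ) : ℂ) * ((cos β : ℝ) : ℂ) := by
    unfold pden; push_cast; ring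
  have key := polar_alg470 ((cosh d : ℝ) : ℂ) ((sinh d : ℝ) : ℂ) ((cos β : ℝ) : ℂ)
    ((sin β : ℝ) : ℂ) ((cos α : ℝ) : ℂ) ((sin α : ℝ) : ℂ) ((pden d β : ℝ) : ℂ)
    (f'' (polarPt d β α) e1 e1) (f'' (polarPt d β α) e1 e2) (f'' (polarPt d β α) e1 e3)
    (f'' (polarPt d β α) e2 e1) (f'' (polarPt d β α) e2 e2) (f'' (polarPt d β α) e2 e3)
    (f'' (polarPt d β α) e3 e1) (f'' (polarPt d β α) e3 e2) (f'' (polarPt d β α) e3 e3)
    (f' (polarPt d β α) e1) (f' (polarPt d β α) e2) (f' (polarPt d β α) e3)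
    (f (polarPt d β α)) hC hs ha hD hD0
    (by
      have : ((polarPt d β α).2.2 : ℝ) = 1 / pden d β := rfl
      rw [this] at hpde
      push_cast at hpde
      exact hpde)
  unfold Fdd Fd Fbb Fb Faa F0
  rw [clm33_470 (f'' (polarPt d β α)) (Pd d β α) (Pd d β α),
    clm33_470 (f'' (polarPt d β α)) (Pb d β α) (Pb d β α),
    clm33_470 (f'' (polarPt d β α)) (Pa d β α) (Pa d β α),
    clm3_470 (f' (polarPt d β α)) (Pd d β α), clm3_470 (f' (polarPt d β α)) (Pdd d β α),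
    clm3_470 (f' (polarPt d β α)) (Pb d β α), clm3_470 (f' (polarPt d β α)) (Pbb d β α),
    clm3_470 (f' (polarPt d β α)) (Paa d β α)]
  simp only [Pd, Pdd, Pb, Pbb, Pa, Paa, PX1, PX2, pdd]
  push_cast
  rw [hD] at key ⊢
  push_cast at key ⊢
  linear_combination key

end Fermat.Agent.LT.H470
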