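import Fermat.Agent.LT.H470.Pullback

/-!
# Row LT, tower A2, pre-leaf ARCH-MVP (helper470): the generators of the Möbius action on `ℍ³`

Mathlib only.  The maps of the upper half-space `{(x₁, x₂, y) : y > 0}`

* `affMap a₁ a₂ b₁ b₂ r` : `(z, y) ↦ (a z + b, r y)`, `a = a₁ + i a₂`, `b = b₁ + i b₂`, `r = |a| > 0`
  (the action of `[[a, b], [0, 1]]`),
* `invMap` : `(z, y) ↦ (- z̄, y) / (|z|² + y²)` (the action of `[[0, -1], [1, 0]]`),

are `ConfMap470`, hence pull solutions of the hyperbolic Laplace equation back to solutions.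
-/

set_option autoImplicit false
set_option linter.unusedTactic false
set_option linter.unreachableTactic false
set_option linter.unusedSimpArgs false

open Real

noncomputable section

namespace Fermat.Agent.LT.H470

/-! ## Directional derivatives along curves -/

theorem fderiv_apply_of_curve470 {Φ : E3 → E3} {L : E3 →L[ℝ] E3} {p : E3}
    (h : HasFDerivAt Φ L p) {c : ℝ → E3} {t₀ : ℝ} {v w : E3} (hc : HasDerivAt c v t₀)
    (hp : c t₀ = p) (hw : HasDerivAt (fun t => Φ (c t)) w t₀) : L v = w := by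
  subst hp
  exact (h.comp_hasDerivAt t₀ hc).unique hw

theorem fderiv2_apply_of_curve470 {Φ' : E3 → E3 →L[ℝ] E3} {B : E3 →L[ℝ] E3 →L[ℝ] E3} {p : E3}
    (h : HasFDerivAt Φ' B p) {c : ℝ → E3} {t₀ : ℝ} {v u w : E3} (hc : HasDerivAt c v t₀)
    (hp : c t₀ = p) {J : ℝ → E3} (hJ : ∀ᶠ t in nhds t₀, Φ' (c t) u = J t)
    (hw : HasDerivAt J w t₀) : B v u = w := by
  subst hp
  have h1 : HasDerivAt (fun t => Φ' (c t)) (B v) t₀ := h.comp_hasDerivAt t₀ hc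
  have h2 : HasDerivAt (fun t => Φ' (c t) u) (B v u + Φ' (c t₀) 0) t₀ :=
    h1.clm_apply (hasDerivAt_const t₀ u)
  rw [map_zero, add_zero] at h2
  have h3 : HasDerivAt J (B v u) t₀ := h2.congr_of_eventuallyEq (hJ.mono fun t ht => ht.symm)
  exact h3.unique hw

theorem hasDerivAt_c1_470 (x₁ x₂ y : ℝ) :
    HasDerivAt (fun t : ℝ => ((t, x₂, y) : E3)) e1 x₁ :=
  (hasDerivAt_id x₁).prodMk ((hasDerivAt_const x₁ x₂).prodMk (hasDerivAt_const x₁ y))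

theorem hasDerivAt_c2_470 (x₁ x₂ y : ℝ) :
    HasDerivAt (fun t : ℝ => ((x₁, t, y) : E3)) e2 x₂ :=
  (hasDerivAt_const x₂ x₁).prodMk ((hasDerivAt_id x₂).prodMk (hasDerivAt_const x₂ y))

theorem hasDerivAt_c3_470 (x₁ x₂ y : ℝ) :
    HasDerivAt (fun t : ℝ => ((x₁, x₂, t) : E3)) e3 y :=
  (hasDerivAt_const y x₁).prodMk ((hasDerivAt_const y x₂).prodMk (hasDerivAt_id y))

/-! ## The inversion -/

/-- `|z|² + y²`. -/
def iR (x₁ x₂ y : ℝ) : ℝ := x₁ ^ 2 + x₂ ^ 2 + y ^ 2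

/-- The inversion `(z, y) ↦ (-z̄, y) / (|z|² + y²)`, i.e. the action of `[[0,-1],[1,0]]`. -/
def invMap (p : E3) : E3 :=
  (-p.1 / iR p.1 p.2.1 p.2.2, p.2.1 / iR p.1 p.2.1 p.2.2, p.2.2 / iR p.1 p.2.1 p.2.2)

theorem iR_pos470 (x₁ x₂ y : ℝ) (hy : 0 < y) : 0 < iR x₁ x₂ y := by
  unfold iR; positivity

/-- `∂₁ invMap`. -/
def iJ1 (x₁ x₂ y : ℝ) : E3 :=
  (-1 / iR x₁ x₂ y + 2 * x₁ ^ 2 / iR x₁ x₂ y ^ 2, -2 * x₁ * x₂ / iR x₁ x₂ y ^ 2,
    -2 * x₁ * y / iR x₁ x₂ y ^ 2)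
/-- `∂₂ invMap`. -/
def iJ2 (x₁ x₂ y : ℝ) : E3 :=
  (2 * x₁ * x₂ / iR x₁ x₂ y ^ 2, 1 / iR x₁ x₂ y - 2 * x₂ ^ 2 / iR x₁ x₂ y ^ 2,
    -2 * x₂ * y / iR x₁ x₂ y ^ 2)
/-- `∂₃ invMap`. -/
def iJ3 (x₁ x₂ y : ℝ) : E3 :=
  (2 * x₁ * y / iR x₁ x₂ y ^ 2, -2 * x₂ * y / iR x₁ x₂ y ^ 2,
    1 / iR x₁ x₂ y - 2 * y ^ 2 / iR x₁ x₂ y ^ 2)
/-- `∂₁² invMap`. -/
def iH1 (x₁ x₂ y : ℝ) : E3 :=
  (6 * x₁ / iR x₁ x₂ y ^ 2 - 8 * x₁ ^ 3 / iR x₁ x₂ y ^ 3,
    -2 * x₂ / iR x₁ x₂ y ^ 2 + 8 * x₁ ^ 2 * x₂ / iR x₁ x₂ y ^ 3,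
    -2 * y / iR x₁ x₂ y ^ 2 + 8 * x₁ ^ 2 * y / iR x₁ x₂ y ^ 3)
/-- `∂₂² invMap`. -/
def iH2 (x₁ x₂ y : ℝ) : E3 :=
  (2 * x₁ / iR x₁ x₂ y ^ 2 - 8 * x₁ * x₂ ^ 2 / iR x₁ x₂ y ^ 3,
    -6 * x₂ / iR x₁ x₂ y ^ 2 + 8 * x₂ ^ 3 / iR x₁ x₂ y ^ 3,
    -2 * y / iR x₁ x₂ y ^ 2 + 8 * x₂ ^ 2 * y / iR x₁ x₂ y ^ 3)
/-- `∂₃² invMap`. -/
def iH3 (x₁ x₂ y : ℝ) : E3 :=
  (2 * x₁ / iR x₁ x₂ y ^ 2 - 8 * x₁ * y ^ 2 / iR x₁ x₂ y ^ 3,
    -2 * x₂ / iR x₁ x₂ y ^ 2 + 8 * x₂ * y ^ 2 / iR x₁ x₂ y ^ 3,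
    -6 * y / iR x₁ x₂ y ^ 2 + 8 * y ^ 3 / iR x₁ x₂ y ^ 3)

section InvDeriv

variable (x₁ x₂ y : ℝ)

theorem hasDerivAt_iR1_470 : HasDerivAt (fun t => iR t x₂ y) (2 * x₁) x₁ := by
  unfold iR
  have h := (((hasDerivAt_id x₁).pow 2).add_const (x₂ ^ 2)).add_const (y ^ 2)
  refine h.congr_deriv ?_
  simp

theorem hasDerivAt_iR2_470 : HasDerivAt (fun t => iR x₁ t y) (2 * x₂) x₂ := by
  unfold iR
  have h := (((hasDerivAt_id x₂).pow 2).const_add (x₁ ^ 2)).add_const (y ^ 2)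
  refine h.congr_deriv ?_
  simp

theorem hasDerivAt_iR3_470 : HasDerivAt (fun t => iR x₁ x₂ t) (2 * y) y := by
  unfold iR
  have h := ((hasDerivAt_id y).pow 2).const_add (x₁ ^ 2 + x₂ ^ 2)
  refine h.congr_deriv ?_
  simp

theorem hasDerivAt_iRsq1_470 :
    HasDerivAt (fun t => iR t x₂ y ^ 2) (4 * x₁ * iR x₁ x₂ y) x₁ := by
  have h := (hasDerivAt_iR1_470 x₁ x₂ y).pow 2
  refine h.congr_deriv ?_
  ring

theorem hasDerivAt_iRsq2_470 :
    HasDerivAt (fun t => iR x₁ t y ^ 2) (4 * x₂ * iR x₁ x₂ y) x₂ := by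
  have h := (hasDerivAt_iR2_470 x₁ x₂ y).pow 2
  refine h.congr_deriv ?_
  ring

theorem hasDerivAt_iRsq3_470 :
    HasDerivAt (fun t => iR x₁ x₂ t ^ 2) (4 * y * iR x₁ x₂ y) y := by
  have h := (hasDerivAt_iR3_470 x₁ x₂ y).pow 2
  refine h.congr_deriv ?_
  ring

variable {y}

theorem hasDerivAt_invMap1_470 (hy : 0 < y) :
    HasDerivAt (fun t => invMap (t, x₂, y)) (iJ1 x₁ x₂ y) x₁ := by
  have hR := hasDerivAt_iR1_470 x₁ x₂ y
  have hR0 : iR x₁ x₂ y ≠ 0 := (iR_pos470 x₁ x₂ y hy).ne'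
  have h1 : HasDerivAt (fun t => -t / iR t x₂ y)
      (-1 / iR x₁ x₂ y + 2 * x₁ ^ 2 / iR x₁ x₂ y ^ 2) x₁ := by
    have h := (hasDerivAt_id x₁).neg.div hR hR0
    refine h.congr_deriv ?_
    try simp only [id, Pi.pow_apply, Pi.neg_apply]
    first
      | (field_simp; ring)
      | field_simp
  have h2 : HasDerivAt (fun t => x₂ / iR t x₂ y) (-2 * x₁ * x₂ / iR x₁ x₂ y ^ 2) x₁ := by
    have h := (hasDerivAt_const x₁ x₂).div hR hR0
    refine h.congr_deriv ?_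
    first
      | (field_simp; ring)
      | field_simp
  have h3 : HasDerivAt (fun t => y / iR t x₂ y) (-2 * x₁ * y / iR x₁ x₂ y ^ 2) x₁ := by
    have h := (hasDerivAt_const x₁ y).div hR hR0
    refine h.congr_deriv ?_
    first
      | (field_simp; ring)
      | field_simp
  exact h1.prodMk (h2.prodMk h3)

theorem hasDerivAt_invMap2_470 (hy : 0 < y) :
    HasDerivAt (fun t => invMap (x₁, t, y)) (iJ2 x₁ x₂ y) x₂ := by
  have hR := hasDerivAt_iR2_470 x₁ x₂ y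
  have hR0 : iR x₁ x₂ y ≠ 0 := (iR_pos470 x₁ x₂ y hy).ne'
  have h1 : HasDerivAt (fun t => -x₁ / iR x₁ t y) (2 * x₁ * x₂ / iR x₁ x₂ y ^ 2) x₂ := by
    have h := (hasDerivAt_const x₂ (-x₁)).div hR hR0
    refine h.congr_deriv ?_
    first
      | (field_simp; ring)
      | field_simp
  have h2 : HasDerivAt (fun t => t / iR x₁ t y)
      (1 / iR x₁ x₂ y - 2 * x₂ ^ 2 / iR x₁ x₂ y ^ 2) x₂ := by
    have h := (hasDerivAt_id x₂).div hR hR0
    refine h.congr_deriv ?_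
    try simp only [id, Pi.pow_apply, Pi.neg_apply]
    first
      | (field_simp; ring)
      | field_simp
  have h3 : HasDerivAt (fun t => y / iR x₁ t y) (-2 * x₂ * y / iR x₁ x₂ y ^ 2) x₂ := by
    have h := (hasDerivAt_const x₂ y).div hR hR0
    refine h.congr_deriv ?_
    first
      | (field_simp; ring)
      | field_simp
  exact h1.prodMk (h2.prodMk h3)

theorem hasDerivAt_invMap3_470 (hy : 0 < y) :
    HasDerivAt (fun t => invMap (x₁, x₂, t)) (iJ3 x₁ x₂ y) y := by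
  have hR := hasDerivAt_iR3_470 x₁ x₂ y
  have hR0 : iR x₁ x₂ y ≠ 0 := (iR_pos470 x₁ x₂ y hy).ne'
  have h1 : HasDerivAt (fun t => -x₁ / iR x₁ x₂ t) (2 * x₁ * y / iR x₁ x₂ y ^ 2) y := by
    have h := (hasDerivAt_const y (-x₁)).div hR hR0
    refine h.congr_deriv ?_
    first
      | (field_simp; ring)
      | field_simp
  have h2 : HasDerivAt (fun t => x₂ / iR x₁ x₂ t) (-2 * x₂ * y / iR x₁ x₂ y ^ 2) y := by
    have h := (hasDerivAt_const y x₂).div hR hR0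
    refine h.congr_deriv ?_
    first
      | (field_simp; ring)
      | field_simp
  have h3 : HasDerivAt (fun t => t / iR x₁ x₂ t)
      (1 / iR x₁ x₂ y - 2 * y ^ 2 / iR x₁ x₂ y ^ 2) y := by
    have h := (hasDerivAt_id y).div hR hR0
    refine h.congr_deriv ?_
    try simp only [id, Pi.pow_apply, Pi.neg_apply]
    first
      | (field_simp; ring)
      | field_simp
  exact h1.prodMk (h2.prodMk h3)

theorem hasDerivAt_iJ1_470 (hy : 0 < y) :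
    HasDerivAt (fun t => iJ1 t x₂ y) (iH1 x₁ x₂ y) x₁ := by
  have hR := hasDerivAt_iR1_470 x₁ x₂ y
  have hR2 := hasDerivAt_iRsq1_470 x₁ x₂ y
  have hR0 : iR x₁ x₂ y ≠ 0 := (iR_pos470 x₁ x₂ y hy).ne'
  have hR20 : iR x₁ x₂ y ^ 2 ≠ 0 := pow_ne_zero _ hR0
  have h1 : HasDerivAt (fun t => -1 / iR t x₂ y + 2 * t ^ 2 / iR t x₂ y ^ 2)
      (6 * x₁ / iR x₁ x₂ y ^ 2 - 8 * x₁ ^ 3 / iR x₁ x₂ y ^ 3) x₁ := by
    have h := ((hasDerivAt_const x₁ (-1 : ℝ)).div hR hR0).add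
      ((((hasDerivAt_id x₁).pow 2).const_mul 2).div hR2 hR20)
    refine h.congr_deriv ?_
    try simp only [id, Pi.pow_apply, Pi.neg_apply]
    first
      | (field_simp; ring)
      | field_simp
  have h2 : HasDerivAt (fun t => -2 * t * x₂ / iR t x₂ y ^ 2)
      (-2 * x₂ / iR x₁ x₂ y ^ 2 + 8 * x₁ ^ 2 * x₂ / iR x₁ x₂ y ^ 3) x₁ := by
    have h := (((hasDerivAt_id x₁).const_mul (-2)).mul_const x₂).div hR2 hR20
    refine h.congr_deriv ?_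
    try simp only [id, Pi.pow_apply, Pi.neg_apply]
    first
      | (field_simp; ring)
      | field_simp
  have h3 : HasDerivAt (fun t => -2 * t * y / iR t x₂ y ^ 2)
      (-2 * y / iR x₁ x₂ y ^ 2 + 8 * x₁ ^ 2 * y / iR x₁ x₂ y ^ 3) x₁ := by
    have h := (((hasDerivAt_id x₁).const_mul (-2)).mul_const y).div hR2 hR20
    refine h.congr_deriv ?_
    try simp only [id, Pi.pow_apply, Pi.neg_apply]
    first
      | (field_simp; ring)
      | field_simp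
  exact h1.prodMk (h2.prodMk h3)

theorem hasDerivAt_iJ2_470 (hy : 0 < y) :
    HasDerivAt (fun t => iJ2 x₁ t y) (iH2 x₁ x₂ y) x₂ := by
  have hR := hasDerivAt_iR2_470 x₁ x₂ y
  have hR2 := hasDerivAt_iRsq2_470 x₁ x₂ y
  have hR0 : iR x₁ x₂ y ≠ 0 := (iR_pos470 x₁ x₂ y hy).ne'
  have hR20 : iR x₁ x₂ y ^ 2 ≠ 0 := pow_ne_zero _ hR0
  have h1 : HasDerivAt (fun t => 2 * x₁ * t / iR x₁ t y ^ 2)
      (2 * x₁ / iR x₁ x₂ y ^ 2 - 8 * x₁ * x₂ ^ 2 / iR x₁ x₂ y ^ 3) x₂ := by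
    have h := ((hasDerivAt_id x₂).const_mul (2 * x₁)).div hR2 hR20
    refine h.congr_deriv ?_
    try simp only [id, Pi.pow_apply, Pi.neg_apply]
    first
      | (field_simp; ring)
      | field_simp
  have h2 : HasDerivAt (fun t => 1 / iR x₁ t y - 2 * t ^ 2 / iR x₁ t y ^ 2)
      (-6 * x₂ / iR x₁ x₂ y ^ 2 + 8 * x₂ ^ 3 / iR x₁ x₂ y ^ 3) x₂ := by
    have h := ((hasDerivAt_const x₂ (1 : ℝ)).div hR hR0).sub
      ((((hasDerivAt_id x₂).pow 2).const_mul 2).div hR2 hR20)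
    refine h.congr_deriv ?_
    try simp only [id, Pi.pow_apply, Pi.neg_apply]
    first
      | (field_simp; ring)
      | field_simp
  have h3 : HasDerivAt (fun t => -2 * t * y / iR x₁ t y ^ 2)
      (-2 * y / iR x₁ x₂ y ^ 2 + 8 * x₂ ^ 2 * y / iR x₁ x₂ y ^ 3) x₂ := by
    have h := (((hasDerivAt_id x₂).const_mul (-2)).mul_const y).div hR2 hR20
    refine h.congr_deriv ?_
    try simp only [id, Pi.pow_apply, Pi.neg_apply]
    first
      | (field_simp; ring)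
      | field_simp
  exact h1.prodMk (h2.prodMk h3)

theorem hasDerivAt_iJ3_470 (hy : 0 < y) :
    HasDerivAt (fun t => iJ3 x₁ x₂ t) (iH3 x₁ x₂ y) y := by
  have hR := hasDerivAt_iR3_470 x₁ x₂ y
  have hR2 := hasDerivAt_iRsq3_470 x₁ x₂ y
  have hR0 : iR x₁ x₂ y ≠ 0 := (iR_pos470 x₁ x₂ y hy).ne'
  have hR20 : iR x₁ x₂ y ^ 2 ≠ 0 := pow_ne_zero _ hR0
  have h1 : HasDerivAt (fun t => 2 * x₁ * t / iR x₁ x₂ t ^ 2)
      (2 * x₁ / iR x₁ x₂ y ^ 2 - 8 * x₁ * y ^ 2 / iR x₁ x₂ y ^ 3) y := by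
    have h := ((hasDerivAt_id y).const_mul (2 * x₁)).div hR2 hR20
    refine h.congr_deriv ?_
    try simp only [id, Pi.pow_apply, Pi.neg_apply]
    first
      | (field_simp; ring)
      | field_simp
  have h2 : HasDerivAt (fun t => -2 * x₂ * t / iR x₁ x₂ t ^ 2)
      (-2 * x₂ / iR x₁ x₂ y ^ 2 + 8 * x₂ * y ^ 2 / iR x₁ x₂ y ^ 3) y := by
    have h := ((hasDerivAt_id y).const_mul (-2 * x₂)).div hR2 hR20
    refine h.congr_deriv ?_
    try simp only [id, Pi.pow_apply, Pi.neg_apply]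
    first
      | (field_simp; ring)
      | field_simp
  have h3 : HasDerivAt (fun t => 1 / iR x₁ x₂ t - 2 * t ^ 2 / iR x₁ x₂ t ^ 2)
      (-6 * y / iR x₁ x₂ y ^ 2 + 8 * y ^ 3 / iR x₁ x₂ y ^ 3) y := by
    have h := ((hasDerivAt_const y (1 : ℝ)).div hR hR0).sub
      ((((hasDerivAt_id y).pow 2).const_mul 2).div hR2 hR20)
    refine h.congr_deriv ?_
    try simp only [id, Pi.pow_apply, Pi.neg_apply]
    first
      | (field_simp; ring)
      | field_simp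
  exact h1.prodMk (h2.prodMk h3)

end InvDeriv

/-! ### `invMap` is a `ConfMap470` -/

theorem contDiffAt_invMap470 (p : E3) (hp : 0 < p.2.2) : ContDiffAt ℝ 2 invMap p := by
  have hR : iR p.1 p.2.1 p.2.2 ≠ 0 := (iR_pos470 _ _ _ hp).ne'
  unfold invMap iR at *
  fun_prop (disch := assumption)

theorem invMap_d1_470 (p : E3) (hp : 0 < p.2.2) :
    HasFDerivAt invMap (fderiv ℝ invMap p) p :=
  ((contDiffAt_invMap470 p hp).differentiableAt (by norm_num)).hasFDerivAt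

theorem invMap_d2_470 (p : E3) (hp : 0 < p.2.2) :
    HasFDerivAt (fderiv ℝ invMap) (fderiv ℝ (fderiv ℝ invMap) p) p :=
  (((contDiffAt_invMap470 p hp).fderiv_right (m := 1) (by norm_num)).differentiableAt
    (by norm_num)).hasFDerivAt

theorem invMap_J1_470 (p : E3) (hp : 0 < p.2.2) :
    fderiv ℝ invMap p e1 = iJ1 p.1 p.2.1 p.2.2 :=
  fderiv_apply_of_curve470 (invMap_d1_470 p hp) (hasDerivAt_c1_470 p.1 p.2.1 p.2.2) rfl
    (hasDerivAt_invMap1_470 p.1 p.2.1 hp)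

theorem invMap_J2_470 (p : E3) (hp : 0 < p.2.2) :
    fderiv ℝ invMap p e2 = iJ2 p.1 p.2.1 p.2.2 :=
  fderiv_apply_of_curve470 (invMap_d1_470 p hp) (hasDerivAt_c2_470 p.1 p.2.1 p.2.2) rfl
    (hasDerivAt_invMap2_470 p.1 p.2.1 hp)

theorem invMap_J3_470 (p : E3) (hp : 0 < p.2.2) :
    fderiv ℝ invMap p e3 = iJ3 p.1 p.2.1 p.2.2 :=
  fderiv_apply_of_curve470 (invMap_d1_470 p hp) (hasDerivAt_c3_470 p.1 p.2.1 p.2.2) rfl
    (hasDerivAt_invMap3_470 p.1 p.2.1 hp)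

theorem invMap_H1_470 (p : E3) (hp : 0 < p.2.2) :
    fderiv ℝ (fderiv ℝ invMap) p e1 e1 = iH1 p.1 p.2.1 p.2.2 :=
  fderiv2_apply_of_curve470 (invMap_d2_470 p hp) (hasDerivAt_c1_470 p.1 p.2.1 p.2.2) rfl
    (J := fun t => iJ1 t p.2.1 p.2.2)
    (Filter.Eventually.of_forall fun t => invMap_J1_470 (t, p.2.1, p.2.2) hp)
    (hasDerivAt_iJ1_470 p.1 p.2.1 hp)

theorem invMap_H2_470 (p : E3) (hp : 0 < p.2.2) :
    fderiv ℝ (fderiv ℝ invMap) p e2 e2 = iH2 p.1 p.2.1 p.2.2 :=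
  fderiv2_apply_of_curve470 (invMap_d2_470 p hp) (hasDerivAt_c2_470 p.1 p.2.1 p.2.2) rfl
    (J := fun t => iJ2 p.1 t p.2.2)
    (Filter.Eventually.of_forall fun t => invMap_J2_470 (p.1, t, p.2.2) hp)
    (hasDerivAt_iJ2_470 p.1 p.2.1 hp)

theorem invMap_H3_470 (p : E3) (hp : 0 < p.2.2) :
    fderiv ℝ (fderiv ℝ invMap) p e3 e3 = iH3 p.1 p.2.1 p.2.2 :=
  fderiv2_apply_of_curve470 (invMap_d2_470 p hp) (hasDerivAt_c3_470 p.1 p.2.1 p.2.2) rfl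
    (J := fun t => iJ3 p.1 p.2.1 t)
    ((eventually_gt_nhds hp).mono fun t ht => invMap_J3_470 (p.1, p.2.1, t) ht)
    (hasDerivAt_iJ3_470 p.1 p.2.1 hp)

/-- The inversion preserves the hyperbolic Laplacian. -/
theorem confMap_invMap470 :
    ConfMap470 invMap (fderiv ℝ invMap) (fderiv ℝ (fderiv ℝ invMap)) where
  maps := fun p hp => by
    simp only [invMap]
    exact div_pos hp (iR_pos470 _ _ _ hp)
  d1 := invMap_d1_470
  d2 := invMap_d2_470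
  cont := fun p hp =>
    ((((contDiffAt_invMap470 p hp).fderiv_right (m := 1) (by norm_num)).fderiv_right
      (m := 0) (by norm_num)).continuousAt).continuousWithinAt
  conf11 := fun p hp => by
    have hR : iR p.1 p.2.1 p.2.2 ≠ 0 := (iR_pos470 _ _ _ hp).ne'
    rw [invMap_J1_470 p hp, invMap_J2_470 p hp, invMap_J3_470 p hp]
    simp only [iJ1, iJ2, iJ3, invMap]
    field_simp
    unfold iR
    ring
  conf22 := fun p hp => by
    have hR : iR p.1 p.2.1 p.2.2 ≠ 0 := (iR_pos470 _ _ _ hp).ne'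
    rw [invMap_J1_470 p hp, invMap_J2_470 p hp, invMap_J3_470 p hp]
    simp only [iJ1, iJ2, iJ3, invMap]
    field_simp
    unfold iR
    ring
  conf33 := fun p hp => by
    have hR : iR p.1 p.2.1 p.2.2 ≠ 0 := (iR_pos470 _ _ _ hp).ne'
    rw [invMap_J1_470 p hp, invMap_J2_470 p hp, invMap_J3_470 p hp]
    simp only [iJ1, iJ2, iJ3, invMap]
    field_simp
    unfold iR
    ring
  conf12 := fun p hp => by
    have hR : iR p.1 p.2.1 p.2.2 ≠ 0 := (iR_pos470 _ _ _ hp).ne'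
    rw [invMap_J1_470 p hp, invMap_J2_470 p hp, invMap_J3_470 p hp]
    simp only [iJ1, iJ2, iJ3, invMap]
    field_simp
    unfold iR
    ring
  conf13 := fun p hp => by
    have hR : iR p.1 p.2.1 p.2.2 ≠ 0 := (iR_pos470 _ _ _ hp).ne'
    rw [invMap_J1_470 p hp, invMap_J2_470 p hp, invMap_J3_470 p hp]
    simp only [iJ1, iJ2, iJ3, invMap]
    field_simp
    unfold iR
    ring
  conf23 := fun p hp => by
    have hR : iR p.1 p.2.1 p.2.2 ≠ 0 := (iR_pos470 _ _ _ hp).ne'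
    rw [invMap_J1_470 p hp, invMap_J2_470 p hp, invMap_J3_470 p hp]
    simp only [iJ1, iJ2, iJ3, invMap]
    field_simp
    unfold iR
    ring
  lap1 := fun p hp => by
    have hR : iR p.1 p.2.1 p.2.2 ≠ 0 := (iR_pos470 _ _ _ hp).ne'
    rw [invMap_H1_470 p hp, invMap_H2_470 p hp, invMap_H3_470 p hp, invMap_J3_470 p hp]
    simp only [iH1, iH2, iH3, iJ3, invMap]
    field_simp
    unfold iR
    ring
  lap2 := fun p hp => by
    have hR : iR p.1 p.2.1 p.2.2 ≠ 0 := (iR_pos470 _ _ _ hp).ne'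
    rw [invMap_H1_470 p hp, invMap_H2_470 p hp, invMap_H3_470 p hp, invMap_J3_470 p hp]
    simp only [iH1, iH2, iH3, iJ3, invMap]
    field_simp
    unfold iR
    ring
  lap3 := fun p hp => by
    have hR : iR p.1 p.2.1 p.2.2 ≠ 0 := (iR_pos470 _ _ _ hp).ne'
    rw [invMap_H1_470 p hp, invMap_H2_470 p hp, invMap_H3_470 p hp, invMap_J3_470 p hp]
    simp only [iH1, iH2, iH3, iJ3, invMap]
    field_simp
    unfold iR
    ring

/-! ## Affine maps `(z, y) ↦ (a z + b, |a| y)` -/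

/-- The linear part of `affMap`. -/
def affL (a₁ a₂ r : ℝ) : E3 →L[ℝ] E3 :=
  (a₁ • ContinuousLinearMap.fst ℝ ℝ (ℝ × ℝ)
      - a₂ • (ContinuousLinearMap.fst ℝ ℝ ℝ).comp (ContinuousLinearMap.snd ℝ ℝ (ℝ × ℝ))).prod
    ((a₂ • ContinuousLinearMap.fst ℝ ℝ (ℝ × ℝ)
      + a₁ • (ContinuousLinearMap.fst ℝ ℝ ℝ).comp (ContinuousLinearMap.snd ℝ ℝ (ℝ × ℝ))).prod
      (r • (ContinuousLinearMap.snd ℝ ℝ ℝ).comp (ContinuousLinearMap.snd ℝ ℝ (ℝ × ℝ))))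

/-- `(z, y) ↦ (a z + b, r y)` with `a = a₁ + i a₂`, `b = b₁ + i b₂`. -/
def affMap (a₁ a₂ b₁ b₂ r : ℝ) (p : E3) : E3 :=
  (a₁ * p.1 - a₂ * p.2.1 + b₁, a₂ * p.1 + a₁ * p.2.1 + b₂, r * p.2.2)

theorem affMap_eq470 (a₁ a₂ b₁ b₂ r : ℝ) :
    affMap a₁ a₂ b₁ b₂ r = fun p => affL a₁ a₂ r p + (b₁, b₂, 0) := by
  funext p
  simp [affMap, affL]

theorem affL_e1_470 (a₁ a₂ r : ℝ) : affL a₁ a₂ r e1 = (a₁, a₂, 0) := by
  simp [affL, e1]

theorem affL_e2_470 (a₁ a₂ r : ℝ) : affL a₁ a₂ r e2 = (-a₂, a₁, 0) := by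
  simp [affL, e2]

theorem affL_e3_470 (a₁ a₂ r : ℝ) : affL a₁ a₂ r e3 = (0, 0, r) := by
  simp [affL, e3]

/-- The affine maps `(z, y) ↦ (a z + b, |a| y)` preserve the hyperbolic Laplacian. -/
theorem confMap_affMap470 (a₁ a₂ b₁ b₂ r : ℝ) (hr : 0 < r) (hr2 : r ^ 2 = a₁ ^ 2 + a₂ ^ 2) :
    ConfMap470 (affMap a₁ a₂ b₁ b₂ r) (fun _ => affL a₁ a₂ r) (fun _ => 0) where
  maps := fun p hp => by
    simp only [affMap]
    exact mul_pos hr hp
  d1 := fun p _ => by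
    rw [affMap_eq470]
    exact (affL a₁ a₂ r).hasFDerivAt.add_const _
  d2 := fun p _ => hasFDerivAt_const _ _
  cont := continuousOn_const
  conf11 := fun p _ => by
    simp only [affL_e1_470, affL_e2_470, affL_e3_470, affMap]
    linear_combination (-(p.2.2 ^ 2)) * hr2
  conf22 := fun p _ => by
    simp only [affL_e1_470, affL_e2_470, affL_e3_470, affMap]
    linear_combination (-(p.2.2 ^ 2)) * hr2
  conf33 := fun p _ => by
    simp only [affL_e1_470, affL_e2_470, affL_e3_470, affMap]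
    ring
  conf12 := fun p _ => by
    simp only [affL_e1_470, affL_e2_470, affL_e3_470]
    ring
  conf13 := fun p _ => by
    simp only [affL_e1_470, affL_e2_470, affL_e3_470]
    ring
  conf23 := fun p _ => by
    simp only [affL_e1_470, affL_e2_470, affL_e3_470]
    ring
  lap1 := fun p _ => by
    simp [affL_e3_470]
  lap2 := fun p _ => by
    simp [affL_e3_470]
  lap3 := fun p _ => by
    simp [affL_e3_470, affMap]
    ring

end Fermat.Agent.LT.H470
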