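import Fermat.Agent.LT.H470.ParamInt
import Fermat.Agent.LT.H470.Chain

/-!
# Row LT, tower A2, pre-leaf ARCH-MVP (helper470): the mean-value property on `ℍ³`

Mathlib only.  **Theorem** (`mvp_H3_470`).  Let `f` be twice differentiable on the upper half-space
`{y > 0}` of `ℝ³` with continuous second derivative and `y² (f₁₁ + f₂₂ + f₃₃) - y f₃ = -f`
(`EigenData470`).  Then for every `d > 0`

    ∫ α in 0..2π, ∫ β in 0..π, f (polarPt d β α) * sin β = 4π (d / sinh d) * f (0, 0, 1),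

where `polarPt d β α = (rotZ α * rotY β * torus d) • (0,0,1)`.  This is the analytic core of
`Fermat.Agent.LT.H556.A0.MeanValueComplex` (spherical parameter `0` at a complex place).

Proof: the Laplace equation in geodesic polar coordinates (`polar_pde470`), differentiation under
the integral sign, integration by parts in `β`, periodicity in `α`, and the ODE
`(sinh d · u)'' = 0` for the spherical mean `u`.
-/

set_option autoImplicit false

open Real MeasureTheory Set Filter Topology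

noncomputable section

namespace Fermat.Agent.LT.H470

/-! ## Slices of jointly continuous functions -/

section Slices

variable {G : ℝ → ℝ → ℝ → ℂ}

theorem slice_ab470 (hG : Continuous (fun q : ℝ × ℝ × ℝ => G q.1 q.2.1 q.2.2)) (d : ℝ) :
    Continuous (Function.uncurry (fun α β => G d β α)) := by
  have : (Function.uncurry fun α β => G d β α)
      = (fun q : ℝ × ℝ × ℝ => G q.1 q.2.1 q.2.2) ∘ (fun r : ℝ × ℝ => (d, r.2, r.1)) := by
    ext r; rfl
  rw [this]; exact hG.comp (by fun_prop)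

theorem slice_ba470 (hG : Continuous (fun q : ℝ × ℝ × ℝ => G q.1 q.2.1 q.2.2)) (d : ℝ) :
    Continuous (Function.uncurry (fun β α => G d β α)) := by
  have : (Function.uncurry fun β α => G d β α)
      = (fun q : ℝ × ℝ × ℝ => G q.1 q.2.1 q.2.2) ∘ (fun r : ℝ × ℝ => (d, r.1, r.2)) := by
    ext r; rfl
  rw [this]; exact hG.comp (by fun_prop)

theorem slice_a470 (hG : Continuous (fun q : ℝ × ℝ × ℝ => G q.1 q.2.1 q.2.2)) (d β : ℝ) :
    Continuous (fun α => G d β α) := by
  have : (fun α => G d β α)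
      = (fun q : ℝ × ℝ × ℝ => G q.1 q.2.1 q.2.2) ∘ (fun r : ℝ => (d, β, r)) := by
    ext r; rfl
  rw [this]; exact hG.comp (by fun_prop)

theorem slice_b470 (hG : Continuous (fun q : ℝ × ℝ × ℝ => G q.1 q.2.1 q.2.2)) (d α : ℝ) :
    Continuous (fun β => G d β α) := by
  have : (fun β => G d β α)
      = (fun q : ℝ × ℝ × ℝ => G q.1 q.2.1 q.2.2) ∘ (fun r : ℝ => (d, r, α)) := by
    ext r; rfl
  rw [this]; exact hG.comp (by fun_prop)

end Slices

/-! ## The weighted fields -/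

section Weighted

variable (f : E3 → ℂ) (f' : E3 → E3 →L[ℝ] ℂ) (f'' : E3 → E3 →L[ℝ] E3 →L[ℝ] ℂ)

/-- `F sin β`. -/
def H0 (d β α : ℝ) : ℂ := F0 f d β α * ((sin β : ℝ) : ℂ)
/-- `F_d sin β`. -/
def H1 (d β α : ℝ) : ℂ := Fd f' d β α * ((sin β : ℝ) : ℂ)
/-- `F_dd sin β`. -/
def H2 (d β α : ℝ) : ℂ := Fdd f' f'' d β α * ((sin β : ℝ) : ℂ)
/-- `sinh² d (F_dd + F) sin β + 2 cosh d sinh d F_d sin β`. -/
def GK (d β α : ℝ) : ℂ :=
  ((sinh d : ℝ) : ℂ) ^ 2 * H0 f d β α + 2 * ((cosh d : ℝ) : ℂ) * ((sinh d : ℝ) : ℂ) * H1 f' d β α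
    + ((sinh d : ℝ) : ℂ) ^ 2 * H2 f' f'' d β α
/-- `(sin β F_β)_β = cos β F_β + sin β F_ββ`. -/
def Gl (d β α : ℝ) : ℂ :=
  ((cos β : ℝ) : ℂ) * Fb f' d β α + ((sin β : ℝ) : ℂ) * Fbb f' f'' d β α

/-- The (unnormalised) spherical mean of `f` over the geodesic sphere of radius `d` around
`(0,0,1)`. -/
def M0 (d : ℝ) : ℂ := ∫ α in (0 : ℝ)..(2 * π), ∫ β in (0 : ℝ)..π, H0 f d β α
/-- Its first derivative. -/
def M1 (d : ℝ) : ℂ := ∫ α in (0 : ℝ)..(2 * π), ∫ β in (0 : ℝ)..π, H1 f' d β α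
/-- Its second derivative. -/
def M2 (d : ℝ) : ℂ := ∫ α in (0 : ℝ)..(2 * π), ∫ β in (0 : ℝ)..π, H2 f' f'' d β α

variable {f f' f''}

theorem continuous_sinb470 : Continuous (fun q : ℝ × ℝ × ℝ => ((sin q.2.1 : ℝ) : ℂ)) := by
  fun_prop

theorem continuous_cosb470 : Continuous (fun q : ℝ × ℝ × ℝ => ((cos q.2.1 : ℝ) : ℂ)) := by
  fun_prop

theorem continuous_H0_470 (h : EigenData470 f f' f'') :
    Continuous (fun q : ℝ × ℝ × ℝ => H0 f q.1 q.2.1 q.2.2) :=
  (continuous_F0_470 h).mul continuous_sinb470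

theorem continuous_H1_470 (h : EigenData470 f f' f'') :
    Continuous (fun q : ℝ × ℝ × ℝ => H1 f' q.1 q.2.1 q.2.2) :=
  (continuous_Fd_470 h).mul continuous_sinb470

theorem continuous_H2_470 (h : EigenData470 f f' f'') :
    Continuous (fun q : ℝ × ℝ × ℝ => H2 f' f'' q.1 q.2.1 q.2.2) :=
  (continuous_Fdd_470 h).mul continuous_sinb470

theorem continuous_GK_470 (h : EigenData470 f f' f'') :
    Continuous (fun q : ℝ × ℝ × ℝ => GK f f' f'' q.1 q.2.1 q.2.2) := by
  have h0 := continuous_H0_470 h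
  have h1 := continuous_H1_470 h
  have h2 := continuous_H2_470 h
  unfold GK
  fun_prop

theorem continuous_Gl_470 (h : EigenData470 f f' f'') :
    Continuous (fun q : ℝ × ℝ × ℝ => Gl f' f'' q.1 q.2.1 q.2.2) :=
  (continuous_cosb470.mul (continuous_Fb_470 h)).add
    (continuous_sinb470.mul (continuous_Fbb_470 h))

/-! ## Derivatives of the spherical mean -/

theorem hasDerivAt_M0_470 (h : EigenData470 f f' f'') (d : ℝ) :
    HasDerivAt (M0 f) (M1 f' d) d :=
  hasDerivAt_double470 (H := H0 f) (H' := H1 f') (continuous_H0_470 h) (continuous_H1_470 h)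
    (fun d β α => (hasDerivAt_F0_d470 h d β α).mul_const _) 0 (2 * π) 0 π d

theorem hasDerivAt_M1_470 (h : EigenData470 f f' f'') (d : ℝ) :
    HasDerivAt (M1 f') (M2 f' f'' d) d :=
  hasDerivAt_double470 (H := H1 f') (H' := H2 f' f'') (continuous_H1_470 h)
    (continuous_H2_470 h)
    (fun d β α => (hasDerivAt_Fd_d470 h d β α).mul_const _) 0 (2 * π) 0 π d

/-! ## The integrated equation -/

theorem pointwise470 (h : EigenData470 f f' f'') (d β α : ℝ) :
    ((sin β : ℝ) : ℂ) * (GK f f' f'' d β α + Gl f' f'' d β α) + Faa f' f'' d β α = 0 := by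
  have key := polar_pde470 h d β α
  unfold GK Gl H0 H1 H2
  linear_combination key

theorem integral_Faa470 (h : EigenData470 f f' f'') (d β : ℝ) :
    ∫ α in (0 : ℝ)..(2 * π), Faa f' f'' d β α = 0 := by
  rw [intervalIntegral.integral_eq_sub_of_hasDerivAt
    (fun α _ => hasDerivAt_Fa_a470 h d β α)
    ((slice_a470 (continuous_Faa_470 h) d β).intervalIntegrable _ _)]
  unfold Fa
  rw [polarPt_two_pi470, Pa_two_pi470, sub_self]

theorem integral_Gl470 (h : EigenData470 f f' f'') (d α : ℝ) :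
    ∫ β in (0 : ℝ)..π, Gl f' f'' d β α = 0 := by
  have hd : ∀ β ∈ uIcc (0 : ℝ) π,
      HasDerivAt (fun β => ((sin β : ℝ) : ℂ) * Fb f' d β α) (Gl f' f'' d β α) β := by
    intro β _
    exact ((Real.hasDerivAt_sin β).ofReal_comp).mul (hasDerivAt_Fb_b470 h d β α)
  rw [intervalIntegral.integral_eq_sub_of_hasDerivAt hd
    ((slice_b470 (continuous_Gl_470 h) d α).intervalIntegrable _ _)]
  simp

theorem integral_GK_a470 (h : EigenData470 f f' f'') (d β : ℝ) (hβ : sin β ≠ 0) :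
    ∫ α in (0 : ℝ)..(2 * π), GK f f' f'' d β α
      = -∫ α in (0 : ℝ)..(2 * π), Gl f' f'' d β α := by
  have hK := (slice_a470 (continuous_GK_470 h) d β).intervalIntegrable (μ := volume) 0 (2 * π)
  have hl := (slice_a470 (continuous_Gl_470 h) d β).intervalIntegrable (μ := volume) 0 (2 * π)
  have hs : ((sin β : ℝ) : ℂ) ≠ 0 := by exact_mod_cast hβ
  have h1 : ∫ α in (0 : ℝ)..(2 * π), (GK f f' f'' d β α + Gl f' f'' d β α)
      = ∫ α in (0 : ℝ)..(2 * π), (-(((sin β : ℝ) : ℂ))⁻¹) * Faa f' f'' d β α := by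
    apply intervalIntegral.integral_congr
    intro α _
    have hp := pointwise470 h d β α
    simp only
    field_simp
    linear_combination hp
  rw [intervalIntegral.integral_add hK hl, intervalIntegral.integral_const_mul,
    integral_Faa470 h d β, mul_zero] at h1
  exact eq_neg_of_add_eq_zero_left h1

theorem integrated470 (h : EigenData470 f f' f'') (d : ℝ) :
    ∫ α in (0 : ℝ)..(2 * π), ∫ β in (0 : ℝ)..π, GK f f' f'' d β α = 0 := by
  rw [intervalIntegral_swap470 (slice_ab470 (continuous_GK_470 h) d) 0 (2 * π) 0 π]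
  have hae : ∀ᵐ β ∂(volume : Measure ℝ), β ∈ Set.uIoc (0 : ℝ) π →
      (∫ α in (0 : ℝ)..(2 * π), GK f f' f'' d β α)
        = -∫ α in (0 : ℝ)..(2 * π), Gl f' f'' d β α := by
    have hπ : ({π}ᶜ : Set ℝ) ∈ ae (volume : Measure ℝ) :=
      compl_mem_ae_iff.mpr (measure_singleton π)
    filter_upwards [hπ] with β hβ hmem
    rw [uIoc_of_le Real.pi_pos.le] at hmem
    have hlt : β < π := lt_of_le_of_ne hmem.2 hβ
    exact integral_GK_a470 h d β (Real.sin_pos_of_pos_of_lt_pi hmem.1 hlt).ne'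
  rw [intervalIntegral.integral_congr_ae hae, intervalIntegral.integral_neg,
    ← intervalIntegral_swap470 (slice_ab470 (continuous_Gl_470 h) d) 0 (2 * π) 0 π]
  simp [integral_Gl470 h d]

theorem ode_M470 (h : EigenData470 f f' f'') (d : ℝ) :
    ((sinh d : ℝ) : ℂ) ^ 2 * (M2 f' f'' d + M0 f d)
      + 2 * ((cosh d : ℝ) : ℂ) * ((sinh d : ℝ) : ℂ) * M1 f' d = 0 := by
  have key := integrated470 h d
  have c0 := continuous_H0_470 h
  have c1 := continuous_H1_470 h
  have c2 := continuous_H2_470 h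
  -- inner linearity
  have inner : ∀ α : ℝ, ∫ β in (0 : ℝ)..π, GK f f' f'' d β α
      = ((sinh d : ℝ) : ℂ) ^ 2 * (∫ β in (0 : ℝ)..π, H0 f d β α)
        + 2 * ((cosh d : ℝ) : ℂ) * ((sinh d : ℝ) : ℂ) * (∫ β in (0 : ℝ)..π, H1 f' d β α)
        + ((sinh d : ℝ) : ℂ) ^ 2 * (∫ β in (0 : ℝ)..π, H2 f' f'' d β α) := by
    intro α
    have i0 := (slice_b470 c0 d α).intervalIntegrable (μ := volume) 0 π
    have i1 := (slice_b470 c1 d α).intervalIntegrable (μ := volume) 0 π
    have i2 := (slice_b470 c2 d α).intervalIntegrable (μ := volume) 0 π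
    unfold GK
    rw [intervalIntegral.integral_add ((i0.const_mul _).add (i1.const_mul _)) (i2.const_mul _),
      intervalIntegral.integral_add (i0.const_mul _) (i1.const_mul _),
      intervalIntegral.integral_const_mul, intervalIntegral.integral_const_mul,
      intervalIntegral.integral_const_mul]
  simp only [inner] at key
  have j0 := ((continuous_inner470 (H := fun d β α => H0 f d β α) c0 0 π).comp
    (Continuous.prodMk_right d)).intervalIntegrable (μ := volume) 0 (2 * π)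
  have j1 := ((continuous_inner470 (H := fun d β α => H1 f' d β α) c1 0 π).comp
    (Continuous.prodMk_right d)).intervalIntegrable (μ := volume) 0 (2 * π)
  have j2 := ((continuous_inner470 (H := fun d β α => H2 f' f'' d β α) c2 0 π).comp
    (Continuous.prodMk_right d)).intervalIntegrable (μ := volume) 0 (2 * π)
  simp only [Function.comp_def, Function.uncurry_apply_pair] at j0 j1 j2
  rw [intervalIntegral.integral_add ((j0.const_mul _).add (j1.const_mul _)) (j2.const_mul _),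
    intervalIntegral.integral_add (j0.const_mul _) (j1.const_mul _),
    intervalIntegral.integral_const_mul, intervalIntegral.integral_const_mul,
    intervalIntegral.integral_const_mul] at key
  unfold M0 M1 M2
  linear_combination key

end Weighted

/-! ## The ordinary differential equation -/

/-- A function on `ℝ`, differentiable everywhere, with zero derivative on `(0, ∞)`, is constant on
`[0, ∞)`. -/
theorem const_of_deriv_zero_Ioi470 {g g' : ℝ → ℂ} (hg : ∀ x, HasDerivAt g (g' x) x)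
    (h0 : ∀ x, 0 < x → g' x = 0) {d : ℝ} (hd : 0 < d) : g d = g 0 := by
  have hconst : ∀ x ∈ Ioi (0 : ℝ), g x = g d := by
    intro x hx
    have := (convex_Ioi (0 : ℝ)).norm_image_sub_le_of_norm_hasDerivWithin_le
      (f := g) (f' := g') (C := 0)
      (fun y _ => (hg y).hasDerivWithinAt) (fun y hy => by rw [h0 y hy, norm_zero])
      (show d ∈ Ioi (0 : ℝ) from hd) hx
    rw [zero_mul] at this
    exact sub_eq_zero.mp (norm_le_zero_iff.mp this)
  have hcont : Tendsto g (𝓝[>] (0 : ℝ)) (𝓝 (g 0)) :=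
    ((hg 0).continuousAt.tendsto).mono_left nhdsWithin_le_nhds
  have hev : g =ᶠ[𝓝[>] (0 : ℝ)] fun _ => g d :=
    eventually_nhdsWithin_of_forall hconst
  have hlim : Tendsto g (𝓝[>] (0 : ℝ)) (𝓝 (g d)) :=
    (tendsto_const_nhds).congr' hev.symm
  exact tendsto_nhds_unique hlim hcont

/-- The ODE `sinh² d (u'' + u) + 2 cosh d sinh d u' = 0` forces `sinh d · u(d) = d · u(0)`. -/
theorem ode470 {u u' u'' : ℝ → ℂ} (hu : ∀ d, HasDerivAt u (u' d) d)
    (hu' : ∀ d, HasDerivAt u' (u'' d) d)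
    (hode : ∀ d, ((sinh d : ℝ) : ℂ) ^ 2 * (u'' d + u d)
      + 2 * ((cosh d : ℝ) : ℂ) * ((sinh d : ℝ) : ℂ) * u' d = 0)
    {d : ℝ} (hd : 0 < d) : ((sinh d : ℝ) : ℂ) * u d = (d : ℂ) * u 0 := by
  have hS : ∀ x : ℝ, HasDerivAt (fun t : ℝ => ((sinh t : ℝ) : ℂ)) ((cosh x : ℝ) : ℂ) x :=
    fun x => (Real.hasDerivAt_sinh x).ofReal_comp
  have hC : ∀ x : ℝ, HasDerivAt (fun t : ℝ => ((cosh t : ℝ) : ℂ)) ((sinh x : ℝ) : ℂ) x :=
    fun x => (Real.hasDerivAt_cosh x).ofReal_comp
  -- `v = sinh · u`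
  have hv : ∀ x : ℝ, HasDerivAt (fun t : ℝ => ((sinh t : ℝ) : ℂ) * u t)
      (((cosh x : ℝ) : ℂ) * u x + ((sinh x : ℝ) : ℂ) * u' x) x :=
    fun x => (hS x).mul (hu x)
  have hv' : ∀ x : ℝ, HasDerivAt
      (fun t : ℝ => ((cosh t : ℝ) : ℂ) * u t + ((sinh t : ℝ) : ℂ) * u' t)
      ((((sinh x : ℝ) : ℂ) * u x + ((cosh x : ℝ) : ℂ) * u' x)
        + (((cosh x : ℝ) : ℂ) * u' x + ((sinh x : ℝ) : ℂ) * u'' x)) x :=
    fun x => ((hC x).mul (hu x)).add ((hS x).mul (hu' x))
  have hv'' : ∀ x : ℝ, 0 < x →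
      (((sinh x : ℝ) : ℂ) * u x + ((cosh x : ℝ) : ℂ) * u' x)
        + (((cosh x : ℝ) : ℂ) * u' x + ((sinh x : ℝ) : ℂ) * u'' x) = 0 := by
    intro x hx
    have hs : ((sinh x : ℝ) : ℂ) ≠ 0 := by
      exact_mod_cast (Real.sinh_pos_iff.mpr hx).ne'
    have := hode x
    apply mul_left_cancel₀ hs
    linear_combination this
  -- `v'` is constant on `[0, ∞)`
  have hv'const : ∀ x : ℝ, 0 < x →
      ((cosh x : ℝ) : ℂ) * u x + ((sinh x : ℝ) : ℂ) * u' x = u 0 := by
    intro x hx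
    have := const_of_deriv_zero_Ioi470 hv' hv'' hx
    simpa using this
  -- `w = v - d · u 0`
  have hw : ∀ x : ℝ, HasDerivAt (fun t : ℝ => ((sinh t : ℝ) : ℂ) * u t - (t : ℂ) * u 0)
      ((((cosh x : ℝ) : ℂ) * u x + ((sinh x : ℝ) : ℂ) * u' x) - 1 * u 0) x := by
    intro x
    have hid : HasDerivAt (fun t : ℝ => (t : ℂ)) 1 x := by
      simpa using (hasDerivAt_id x).ofReal_comp
    exact (hv x).sub (hid.mul_const (u 0))
  have hw0 : ∀ x : ℝ, 0 < x →
      (((cosh x : ℝ) : ℂ) * u x + ((sinh x : ℝ) : ℂ) * u' x) - 1 * u 0 = 0 := by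
    intro x hx
    rw [hv'const x hx]; ring
  have := const_of_deriv_zero_Ioi470 hw hw0 hd
  simp only [Real.sinh_zero, Complex.ofReal_zero, zero_mul, sub_zero] at this
  exact sub_eq_zero.mp this

/-! ## The theorem -/

theorem M0_zero470 (f : E3 → ℂ) : M0 f 0 = ((4 * π : ℝ) : ℂ) * f (0, 0, 1) := by
  unfold M0 H0 F0
  simp only [polarPt_zero470]
  have h1 : ∫ β in (0 : ℝ)..π, f (0, 0, 1) * ((sin β : ℝ) : ℂ) = f (0, 0, 1) * 2 := by
    rw [intervalIntegral.integral_const_mul, intervalIntegral.integral_ofReal, integral_sin]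
    norm_num
  simp only [h1, intervalIntegral.integral_const, sub_zero, Complex.real_smul]
  push_cast
  ring

/-- **Mean-value property on `ℍ³`, spherical parameter `0`.**  For a solution `f` of the
hyperbolic Laplace equation `y² (f₁₁ + f₂₂ + f₃₃) - y f₃ = -f` on the upper half-space, the mean
of `f` over the geodesic sphere of radius `d > 0` around `j = (0,0,1)` (Euler angles, weight
`sin β dβ dα`) is `4π (d / sinh d) f(j)`. -/
theorem mvp_H3_470 {f : E3 → ℂ} {f' : E3 → E3 →L[ℝ] ℂ} {f'' : E3 → E3 →L[ℝ] E3 →L[ℝ] ℂ}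
    (h : EigenData470 f f' f'') {d : ℝ} (hd : 0 < d) :
    ∫ α in (0 : ℝ)..(2 * π), ∫ β in (0 : ℝ)..π, f (polarPt d β α) * ((sin β : ℝ) : ℂ)
      = ((4 * π * (d / sinh d) : ℝ) : ℂ) * f (0, 0, 1) := by
  have key := ode470 (u := M0 f) (u' := M1 f') (u'' := M2 f' f'')
    (hasDerivAt_M0_470 h) (hasDerivAt_M1_470 h) (ode_M470 h) hd
  rw [M0_zero470] at key
  have hs : ((sinh d : ℝ) : ℂ) ≠ 0 := by
    exact_mod_cast (Real.sinh_pos_iff.mpr hd).ne'
  have hM : M0 f d = ∫ α in (0 : ℝ)..(2 * π), ∫ β in (0 : ℝ)..π,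
      f (polarPt d β α) * ((sin β : ℝ) : ℂ) := rfl
  rw [← hM]
  apply mul_left_cancel₀ hs
  rw [key]
  simp only [Complex.ofReal_mul, Complex.ofReal_div]
  field_simp

end Fermat.Agent.LT.H470
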