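import Fermat.Agent.LT.H470.Generators
import Fermat.Agent.LT.H470.MVP

/-!
# Row LT, tower A2, pre-leaf ARCH-MVP (helper470): the mean-value property in every frame

Mathlib only.  `jpt m = m • j` is the point of `ℍ³` attached to `m ∈ GL₂(ℂ)` (`j = (0,0,1)`;
`jpt (n(z) diag(y, 1) k) = (z, y)` for `k ∈ U(2)`, `y > 0`).

**Theorem** (`frameMVP470`).  For every solution `f` of the hyperbolic Laplace equation on the upper
half-space (`EigenData470`), every `γ` with `det γ ≠ 0` and every `d > 0`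

    ∫ α in 0..2π, ∫ β in 0..π, f (jpt (γ * (rotZ α * rotY β * torus d))) * sin β
      = 4π (d / sinh d) * f (jpt γ).

So `g ↦ f (jpt g)` has the mean-value property of `Fermat.Agent.LT.H556.A0.MeanValueComplex`
(spherical parameter `0`) on `GL₂(ℂ)`; `rotZ470`, `rotY470`, `torus470` are the matrices
`A0.rotZ`, `A0.rotY`, `A0.torus` verbatim.

Proof: `mvp_H3_470` (frame `γ = 1`), invariance of the equation under the generators
(`Generators.lean`), Bruhat decomposition.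
-/

set_option autoImplicit false
set_option linter.unusedSimpArgs false
set_option linter.unnecessarySeqFocus false

open Real ComplexConjugate

noncomputable section

namespace Fermat.Agent.LT.H470

/-- `|c|² + |e|²`. -/
def jN (c e : ℂ) : ℝ := Complex.normSq c + Complex.normSq e

/-- The point `[[a, b], [c, e]] • j` of `ℍ³`, `j = (0, 0, 1)`. -/
def jptE (a b c e : ℂ) : E3 :=
  (((b * conj e + a * conj c) / (jN c e : ℂ)).re, ((b * conj e + a * conj c) / (jN c e : ℂ)).im,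
    ‖a * e - b * c‖ / jN c e)

theorem jN_pos470 {c e : ℂ} (h : c ≠ 0 ∨ e ≠ 0) : 0 < jN c e := by
  unfold jN
  rcases h with h | h
  · have := Complex.normSq_pos.mpr h
    have := Complex.normSq_nonneg e
    linarith
  · have := Complex.normSq_pos.mpr h
    have := Complex.normSq_nonneg c
    linarith

theorem jptE_upper470 (a' b' a b c e : ℂ) (h : c ≠ 0 ∨ e ≠ 0) :
    jptE (a' * a + b' * c) (a' * b + b' * e) c e
      = affMap a'.re a'.im b'.re b'.im ‖a'‖ (jptE a b c e) := by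
  have hN := (jN_pos470 h).ne'
  have hNc : ((jN c e : ℝ) : ℂ) ≠ 0 := by exact_mod_cast hN
  have hz : ((a' * b + b' * e) * conj e + (a' * a + b' * c) * conj c) / (jN c e : ℂ)
      = a' * ((b * conj e + a * conj c) / (jN c e : ℂ)) + b' := by
    have h1 : (jN c e : ℂ) = c * conj c + e * conj e := by
      unfold jN
      rw [Complex.mul_conj, Complex.mul_conj]
      push_cast; ring
    field_simp
    rw [h1]
    ring
  have hy : ‖(a' * a + b' * c) * e - (a' * b + b' * e) * c‖ = ‖a'‖ * ‖a * e - b * c‖ := by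
    rw [← norm_mul]
    congr 1
    ring
  unfold jptE affMap
  rw [hz, hy]
  simp only [Complex.add_re, Complex.mul_re, Complex.add_im, Complex.mul_im]
  refine Prod.ext ?_ (Prod.ext ?_ ?_)
  · simp
  · simp; ring
  · simp; ring

theorem ne_of_det_ne470 {a b c e : ℂ} (h : a * e - b * c ≠ 0) :
    (a ≠ 0 ∨ b ≠ 0) ∧ (c ≠ 0 ∨ e ≠ 0) := by
  constructor
  · by_contra hh
    rw [not_or, not_not, not_not] at hh
    apply h; rw [hh.1, hh.2]; ring
  · by_contra hh
    rw [not_or, not_not, not_not] at hh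
    apply h; rw [hh.1, hh.2]; ring

theorem jptE_inv470 (a b c e : ℂ) (h : a * e - b * c ≠ 0) :
    jptE (-c) (-e) a b = invMap (jptE a b c e) := by
  obtain ⟨hab, hce⟩ := ne_of_det_ne470 h
  have hN := (jN_pos470 hce).ne'
  have hN' := (jN_pos470 hab).ne'
  have hNd : jN c e = c.re ^ 2 + c.im ^ 2 + e.re ^ 2 + e.im ^ 2 := by
    simp only [jN, Complex.normSq_apply]; ring
  have hN'd : jN a b = a.re ^ 2 + a.im ^ 2 + b.re ^ 2 + b.im ^ 2 := by
    simp only [jN, Complex.normSq_apply]; ring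
  have hdet1 : ‖-c * b - -e * a‖ = ‖a * e - b * c‖ := by
    congr 1; ring
  have hD : ‖a * e - b * c‖ ^ 2
      = (a.re * e.re - a.im * e.im - (b.re * c.re - b.im * c.im)) ^ 2
        + (a.re * e.im + a.im * e.re - (b.re * c.im + b.im * c.re)) ^ 2 := by
    rw [Complex.sq_norm, Complex.normSq_apply]
    simp only [Complex.sub_re, Complex.mul_re, Complex.sub_im, Complex.mul_im]
    ring
  have hQre : (b * conj e + a * conj c).re
      = b.re * e.re + b.im * e.im + (a.re * c.re + a.im * c.im) := by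
    simp only [Complex.add_re, Complex.mul_re, Complex.conj_re, Complex.conj_im]
    ring
  have hQim : (b * conj e + a * conj c).im
      = b.im * e.re - b.re * e.im + (a.im * c.re - a.re * c.im) := by
    simp only [Complex.add_im, Complex.mul_im, Complex.conj_re, Complex.conj_im]
    ring
  have hQ're : (-e * conj b + -c * conj a).re
      = -(b.re * e.re + b.im * e.im + (a.re * c.re + a.im * c.im)) := by
    simp only [Complex.add_re, Complex.mul_re, Complex.conj_re, Complex.conj_im,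
      Complex.neg_re, Complex.neg_im]
    ring
  have hQ'im : (-e * conj b + -c * conj a).im
      = b.im * e.re - b.re * e.im + (a.im * c.re - a.re * c.im) := by
    simp only [Complex.add_im, Complex.mul_im, Complex.conj_re, Complex.conj_im,
      Complex.neg_re, Complex.neg_im]
    ring
  have hL : (b.re * e.re + b.im * e.im + (a.re * c.re + a.im * c.im)) ^ 2
      + (b.im * e.re - b.re * e.im + (a.im * c.re - a.re * c.im)) ^ 2
      + ‖a * e - b * c‖ ^ 2 = jN c e * jN a b := by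
    rw [hD, hNd, hN'd]; ring
  have hR : iR ((b * conj e + a * conj c) / (jN c e : ℂ)).re
      ((b * conj e + a * conj c) / (jN c e : ℂ)).im (‖a * e - b * c‖ / jN c e)
      = jN a b / jN c e := by
    unfold iR
    rw [Complex.div_ofReal_re, Complex.div_ofReal_im, hQre, hQim]
    field_simp
    linear_combination hL
  unfold jptE invMap
  simp only [hR, hdet1]
  rw [Complex.div_ofReal_re, Complex.div_ofReal_im, Complex.div_ofReal_re, Complex.div_ofReal_im,
    hQre, hQim, hQ're, hQ'im]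
  refine Prod.ext ?_ (Prod.ext ?_ ?_)
  · simp only; field_simp
  · simp only; field_simp
  · simp only; field_simp

theorem jptE_smul470 (l a b c e : ℂ) (hl : l ≠ 0) (h : c ≠ 0 ∨ e ≠ 0) :
    jptE (l * a) (l * b) (l * c) (l * e) = jptE a b c e := by
  have hN := (jN_pos470 h).ne'
  have hl' : Complex.normSq l ≠ 0 := (Complex.normSq_pos.mpr hl).ne'
  have hNl : jN (l * c) (l * e) = Complex.normSq l * jN c e := by
    simp only [jN, Complex.normSq_mul]; ring
  have hdet : ‖l * a * (l * e) - l * b * (l * c)‖ = Complex.normSq l * ‖a * e - b * c‖ := by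
    have : l * a * (l * e) - l * b * (l * c) = l * l * (a * e - b * c) := by ring
    rw [this, norm_mul, norm_mul, Complex.normSq_eq_norm_sq]
    ring
  have hz : (l * b * conj (l * e) + l * a * conj (l * c)) / ((jN (l * c) (l * e) : ℝ) : ℂ)
      = (b * conj e + a * conj c) / ((jN c e : ℝ) : ℂ) := by
    have hNc : ((jN c e : ℝ) : ℂ) ≠ 0 := by exact_mod_cast hN
    have hlc : ((Complex.normSq l : ℝ) : ℂ) ≠ 0 := by exact_mod_cast hl'
    rw [hNl]
    push_cast
    rw [map_mul, map_mul]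
    have hll : l * conj l = (Complex.normSq l : ℂ) := Complex.mul_conj l
    field_simp
    linear_combination ((b * conj e + a * conj c)) * hll
  unfold jptE
  rw [hz, hdet, hNl]
  refine Prod.ext rfl (Prod.ext rfl ?_)
  simp only
  field_simp

/-- `diag(e^{iα/2}, e^{-iα/2})` (same matrix as `A0.rotZ`). -/
def rotZ470 (α : ℝ) : Matrix (Fin 2) (Fin 2) ℂ :=
  !![Complex.exp (Complex.I * ((α / 2 : ℝ) : ℂ)), 0;
     0, Complex.exp (-(Complex.I * ((α / 2 : ℝ) : ℂ)))]

/-- The rotation matrix of angle `β / 2` (same matrix as `A0.rotY`). -/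
def rotY470 (β : ℝ) : Matrix (Fin 2) (Fin 2) ℂ :=
  !![((Real.cos (β / 2) : ℝ) : ℂ), -((Real.sin (β / 2) : ℝ) : ℂ);
     ((Real.sin (β / 2) : ℝ) : ℂ), ((Real.cos (β / 2) : ℝ) : ℂ)]

/-- `diag(e^{d/2}, e^{-d/2})` (same matrix as `A0.torus`). -/
def torus470 (d : ℝ) : Matrix (Fin 2) (Fin 2) ℂ :=
  !![((Real.exp (d / 2) : ℝ) : ℂ), 0;
     0, ((Real.exp (-(d / 2)) : ℝ) : ℂ)]

/-- The frame matrix. -/
def Rm470 (α β d : ℝ) : Matrix (Fin 2) (Fin 2) ℂ := rotZ470 α * rotY470 β * torus470 d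

theorem Rm_entries470 (α β d : ℝ) :
    Rm470 α β d =
      !![Complex.exp (Complex.I * ((α / 2 : ℝ) : ℂ)) * ((Real.cos (β / 2) : ℝ) : ℂ)
            * ((Real.exp (d / 2) : ℝ) : ℂ),
          -(Complex.exp (Complex.I * ((α / 2 : ℝ) : ℂ)) * ((Real.sin (β / 2) : ℝ) : ℂ)
            * ((Real.exp (-(d / 2)) : ℝ) : ℂ));
         Complex.exp (-(Complex.I * ((α / 2 : ℝ) : ℂ))) * ((Real.sin (β / 2) : ℝ) : ℂ)
            * ((Real.exp (d / 2) : ℝ) : ℂ),
          Complex.exp (-(Complex.I * ((α / 2 : ℝ) : ℂ))) * ((Real.cos (β / 2) : ℝ) : ℂ)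
            * ((Real.exp (-(d / 2)) : ℝ) : ℂ)] := by
  unfold Rm470 rotZ470 rotY470 torus470
  ext i j
  fin_cases i <;> fin_cases j <;> simp [Matrix.mul_apply, Fin.sum_univ_two]

theorem jptE_rot470 (α β d : ℝ) :
    jptE (Complex.exp (Complex.I * ((α / 2 : ℝ) : ℂ)) * ((Real.cos (β / 2) : ℝ) : ℂ)
            * ((Real.exp (d / 2) : ℝ) : ℂ))
        (-(Complex.exp (Complex.I * ((α / 2 : ℝ) : ℂ)) * ((Real.sin (β / 2) : ℝ) : ℂ)
            * ((Real.exp (-(d / 2)) : ℝ) : ℂ)))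
        (Complex.exp (-(Complex.I * ((α / 2 : ℝ) : ℂ))) * ((Real.sin (β / 2) : ℝ) : ℂ)
            * ((Real.exp (d / 2) : ℝ) : ℂ))
        (Complex.exp (-(Complex.I * ((α / 2 : ℝ) : ℂ))) * ((Real.cos (β / 2) : ℝ) : ℂ)
            * ((Real.exp (-(d / 2)) : ℝ) : ℂ))
      = polarPt d β α := by
  set u : ℂ := Complex.exp (Complex.I * ((α / 2 : ℝ) : ℂ)) with hu
  set u' : ℂ := Complex.exp (-(Complex.I * ((α / 2 : ℝ) : ℂ))) with hu'
  set C : ℝ := Real.cos (β / 2) with hC
  set S : ℝ := Real.sin (β / 2) with hS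
  set E : ℝ := Real.exp (d / 2) with hE
  set E' : ℝ := Real.exp (-(d / 2)) with hE'
  have f1 : conj u' = u := by
    rw [hu', hu, ← Complex.exp_conj]
    congr 1
    rw [map_neg, map_mul, Complex.conj_I, Complex.conj_ofReal]
    ring
  have f4 : u * u' = 1 := by
    rw [hu, hu', ← Complex.exp_add, add_neg_cancel, Complex.exp_zero]
  have f2 : Complex.normSq u' = 1 := by
    rw [Complex.normSq_eq_norm_sq, hu', Complex.norm_exp]
    simp
  have f3 : u * u = ((Real.cos α : ℝ) : ℂ) + ((Real.sin α : ℝ) : ℂ) * Complex.I := by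
    rw [hu, ← Complex.exp_add]
    have : Complex.I * ((α / 2 : ℝ) : ℂ) + Complex.I * ((α / 2 : ℝ) : ℂ) = (α : ℂ) * Complex.I := by
      push_cast; ring
    rw [this, Complex.exp_mul_I]
    push_cast
    rfl
  have hCS : C ^ 2 + S ^ 2 = 1 := by
    rw [hC, hS]; exact Real.cos_sq_add_sin_sq (β / 2)
  have hcosb : Real.cos β = C ^ 2 - S ^ 2 := by
    have h2 := Real.cos_two_mul (β / 2)
    rw [show 2 * (β / 2) = β by ring] at h2
    rw [h2, hC, hS]
    have := Real.cos_sq_add_sin_sq (β / 2)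
    linarith
  have hsinb : Real.sin β = 2 * S * C := by
    have h2 := Real.sin_two_mul (β / 2)
    rw [show 2 * (β / 2) = β by ring] at h2
    rw [h2]
  have hEE : E ^ 2 = Real.exp d := by
    rw [hE, sq, ← Real.exp_add]; congr 1; ring
  have hEE' : E' ^ 2 = Real.exp (-d) := by
    rw [hE', sq, ← Real.exp_add]; congr 1; ring
  have hEE1 : E * E' = 1 := by
    rw [hE, hE', ← Real.exp_add, add_neg_cancel, Real.exp_zero]
  have hcosh : Real.cosh d = (E ^ 2 + E' ^ 2) / 2 := by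
    rw [Real.cosh_eq, hEE, hEE']
  have hsinh : Real.sinh d = (E ^ 2 - E' ^ 2) / 2 := by
    rw [Real.sinh_eq, hEE, hEE']
  have hN : jN (u' * (S : ℂ) * (E : ℂ)) (u' * (C : ℂ) * (E' : ℂ)) = pden d β := by
    unfold jN pden
    simp only [Complex.normSq_mul, f2, Complex.normSq_ofReal, one_mul]
    rw [hcosh, hsinh, hcosb]
    linear_combination ((E ^ 2 + E' ^ 2) / 2) * hCS
  have hQ : -(u * (S : ℂ) * (E' : ℂ)) * conj (u' * (C : ℂ) * (E' : ℂ))
      + u * (C : ℂ) * (E : ℂ) * conj (u' * (S : ℂ) * (E : ℂ))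
      = (((Real.cos α : ℝ) : ℂ) + ((Real.sin α : ℝ) : ℂ) * Complex.I)
        * ((Real.sinh d * Real.sin β : ℝ) : ℂ) := by
    simp only [map_mul, f1, Complex.conj_ofReal]
    rw [← f3, hsinh, hsinb]
    push_cast
    ring
  have hdet : u * (C : ℂ) * (E : ℂ) * (u' * (C : ℂ) * (E' : ℂ))
      - -(u * (S : ℂ) * (E' : ℂ)) * (u' * (S : ℂ) * (E : ℂ)) = 1 := by
    have h1 : ((E : ℂ)) * (E' : ℂ) = 1 := by exact_mod_cast hEE1
    have h2 : ((C : ℂ)) ^ 2 + (S : ℂ) ^ 2 = 1 := by exact_mod_cast hCS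
    linear_combination ((C : ℂ) ^ 2 * (E : ℂ) * (E' : ℂ) + (S : ℂ) ^ 2 * (E : ℂ) * (E' : ℂ)) * f4
      + ((C : ℂ) ^ 2 + (S : ℂ) ^ 2) * h1 + h2
  unfold jptE
  rw [hN, hQ, hdet]
  unfold polarPt PX1 PX2 PY
  refine Prod.ext ?_ (Prod.ext ?_ ?_)
  · simp only [Complex.div_ofReal_re]
    simp only [Complex.mul_re, Complex.add_re, Complex.add_im, Complex.ofReal_re,
      Complex.ofReal_im, Complex.mul_im, Complex.I_re, Complex.I_im]
    ring
  · simp only [Complex.div_ofReal_im]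
    simp only [Complex.mul_re, Complex.add_re, Complex.add_im, Complex.ofReal_re,
      Complex.ofReal_im, Complex.mul_im, Complex.I_re, Complex.I_im]
    ring
  · simp


/-! ## Matrices -/

/-- The point `m • j` of `ℍ³`. -/
def jpt (m : Matrix (Fin 2) (Fin 2) ℂ) : E3 := jptE (m 0 0) (m 0 1) (m 1 0) (m 1 1)

theorem jpt_Rm470 (α β d : ℝ) : jpt (Rm470 α β d) = polarPt d β α := by
  rw [Rm_entries470]
  exact jptE_rot470 α β d

theorem jpt_one470 : jpt (1 : Matrix (Fin 2) (Fin 2) ℂ) = (0, 0, 1) := by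
  simp [jpt, jptE, jN]

theorem det_Rm470 (α β d : ℝ) : (Rm470 α β d).det = 1 := by
  unfold Rm470 rotZ470 rotY470 torus470
  rw [Matrix.det_mul, Matrix.det_mul, Matrix.det_fin_two_of, Matrix.det_fin_two_of,
    Matrix.det_fin_two_of]
  have h1 : Complex.exp (Complex.I * ((α / 2 : ℝ) : ℂ))
      * Complex.exp (-(Complex.I * ((α / 2 : ℝ) : ℂ))) = 1 := by
    rw [← Complex.exp_add, add_neg_cancel, Complex.exp_zero]
  have h2 : ((Real.cos (β / 2) : ℝ) : ℂ) * ((Real.cos (β / 2) : ℝ) : ℂ)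
      + ((Real.sin (β / 2) : ℝ) : ℂ) * ((Real.sin (β / 2) : ℝ) : ℂ) = 1 := by
    rw [← Complex.ofReal_mul, ← Complex.ofReal_mul, ← Complex.ofReal_add]
    have : Real.cos (β / 2) * Real.cos (β / 2) + Real.sin (β / 2) * Real.sin (β / 2) = 1 := by
      have := Real.cos_sq_add_sin_sq (β / 2)
      linear_combination this
    rw [this, Complex.ofReal_one]
  have h3 : ((Real.exp (d / 2) : ℝ) : ℂ) * ((Real.exp (-(d / 2)) : ℝ) : ℂ) = 1 := by
    have : Real.exp (d / 2) * Real.exp (-(d / 2)) = 1 := by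
      rw [← Real.exp_add, add_neg_cancel, Real.exp_zero]
    exact_mod_cast this
  linear_combination (((Real.cos (β / 2) : ℝ) : ℂ) * ((Real.cos (β / 2) : ℝ) : ℂ)
      + ((Real.sin (β / 2) : ℝ) : ℂ) * ((Real.sin (β / 2) : ℝ) : ℂ))
      * ((Real.exp (d / 2) : ℝ) : ℂ) * ((Real.exp (-(d / 2)) : ℝ) : ℂ) * h1
    + ((Real.exp (d / 2) : ℝ) : ℂ) * ((Real.exp (-(d / 2)) : ℝ) : ℂ) * h2 + h3

theorem row_ne_of_det_ne470 {m : Matrix (Fin 2) (Fin 2) ℂ} (h : m.det ≠ 0) :
    m 1 0 ≠ 0 ∨ m 1 1 ≠ 0 := by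
  rw [Matrix.det_fin_two] at h
  exact (ne_of_det_ne470 h).2

theorem jpt_upper470 (a b : ℂ) {m : Matrix (Fin 2) (Fin 2) ℂ} (h : m.det ≠ 0) :
    jpt (!![a, b; 0, 1] * m) = affMap a.re a.im b.re b.im ‖a‖ (jpt m) := by
  have := jptE_upper470 a b (m 0 0) (m 0 1) (m 1 0) (m 1 1) (row_ne_of_det_ne470 h)
  unfold jpt
  rw [← this]
  simp [Matrix.mul_apply, Fin.sum_univ_two]

theorem jpt_inv470 {m : Matrix (Fin 2) (Fin 2) ℂ} (h : m.det ≠ 0) :
    jpt (!![0, -1; 1, 0] * m) = invMap (jpt m) := by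
  rw [Matrix.det_fin_two] at h
  have := jptE_inv470 (m 0 0) (m 0 1) (m 1 0) (m 1 1) h
  unfold jpt
  rw [← this]
  simp [Matrix.mul_apply, Fin.sum_univ_two]

theorem jpt_smul470 (l : ℂ) (hl : l ≠ 0) {m : Matrix (Fin 2) (Fin 2) ℂ} (h : m.det ≠ 0) :
    jpt (l • m) = jpt m := by
  have := jptE_smul470 l (m 0 0) (m 0 1) (m 1 0) (m 1 1) hl (row_ne_of_det_ne470 h)
  unfold jpt
  rw [← this]
  simp [Matrix.smul_apply]

/-! ## The mean-value property in the frame `γ` -/

/-- The mean-value property (spherical parameter `0`) of all solutions in the frame `γ`. -/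
def FrameMVP470 (γ : Matrix (Fin 2) (Fin 2) ℂ) : Prop :=
  ∀ (f : E3 → ℂ) (f' : E3 → E3 →L[ℝ] ℂ) (f'' : E3 → E3 →L[ℝ] E3 →L[ℝ] ℂ),
    EigenData470 f f' f'' → ∀ d : ℝ, 0 < d →
      ∫ α in (0 : ℝ)..(2 * π), ∫ β in (0 : ℝ)..π,
          f (jpt (γ * Rm470 α β d)) * ((sin β : ℝ) : ℂ)
        = ((4 * π * (d / sinh d) : ℝ) : ℂ) * f (jpt γ)

/-- Invariant of the Bruhat induction. -/
def Good470 (γ : Matrix (Fin 2) (Fin 2) ℂ) : Prop := γ.det ≠ 0 ∧ FrameMVP470 γ

theorem good_one470 : Good470 1 := by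
  refine ⟨by simp, ?_⟩
  intro f f' f'' h d hd
  simp only [one_mul, jpt_Rm470, jpt_one470]
  exact mvp_H3_470 h hd

theorem det_mul_Rm470 {γ : Matrix (Fin 2) (Fin 2) ℂ} (hγ : γ.det ≠ 0) (α β d : ℝ) :
    (γ * Rm470 α β d).det ≠ 0 := by
  rw [Matrix.det_mul, det_Rm470, mul_one]
  exact hγ

theorem good_upper470 {γ : Matrix (Fin 2) (Fin 2) ℂ} (h : Good470 γ) (a b : ℂ) (ha : a ≠ 0) :
    Good470 (!![a, b; 0, 1] * γ) := by
  refine ⟨?_, ?_⟩
  · rw [Matrix.det_mul, Matrix.det_fin_two_of]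
    simpa using mul_ne_zero ha h.1
  · intro f f' f'' hf d hd
    have hr : 0 < ‖a‖ := norm_pos_iff.mpr ha
    have hr2 : ‖a‖ ^ 2 = a.re ^ 2 + a.im ^ 2 := by
      rw [Complex.sq_norm, Complex.normSq_apply]; ring
    have hg := hf.pullback (confMap_affMap470 a.re a.im b.re b.im ‖a‖ hr hr2)
    have key := h.2 _ _ _ hg d hd
    simp only [Function.comp_apply] at key
    rw [← jpt_upper470 a b h.1] at key
    rw [← key]
    congr 1
    funext α
    congr 1
    funext β
    rw [Matrix.mul_assoc, jpt_upper470 a b (det_mul_Rm470 h.1 α β d)]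

theorem good_inv470 {γ : Matrix (Fin 2) (Fin 2) ℂ} (h : Good470 γ) :
    Good470 (!![0, -1; 1, 0] * γ) := by
  refine ⟨?_, ?_⟩
  · rw [Matrix.det_mul, Matrix.det_fin_two_of]
    simpa using h.1
  · intro f f' f'' hf d hd
    have hg := hf.pullback confMap_invMap470
    have key := h.2 _ _ _ hg d hd
    simp only [Function.comp_apply] at key
    rw [← jpt_inv470 h.1] at key
    rw [← key]
    congr 1
    funext α
    congr 1
    funext β
    rw [Matrix.mul_assoc, jpt_inv470 (det_mul_Rm470 h.1 α β d)]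

theorem good_smul470 {γ : Matrix (Fin 2) (Fin 2) ℂ} (h : Good470 γ) (l : ℂ) (hl : l ≠ 0) :
    Good470 (l • γ) := by
  refine ⟨?_, ?_⟩
  · rw [Matrix.det_smul]
    simpa using mul_ne_zero (pow_ne_zero 2 hl) h.1
  · intro f f' f'' hf d hd
    have key := h.2 _ _ _ hf d hd
    rw [jpt_smul470 l hl h.1, ← key]
    congr 1
    funext α
    congr 1
    funext β
    rw [Matrix.smul_mul, jpt_smul470 l hl (det_mul_Rm470 h.1 α β d)]

/-- **The mean-value property in every frame.** -/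
theorem frameMVP470 (γ : Matrix (Fin 2) (Fin 2) ℂ) (hγ : γ.det ≠ 0) : FrameMVP470 γ := by
  have hdet := hγ
  rw [Matrix.det_fin_two] at hdet
  by_cases hc : γ 1 0 = 0
  · -- upper triangular
    have he : γ 1 1 ≠ 0 := by
      intro he; apply hdet; rw [hc, he]; ring
    have ha : γ 0 0 ≠ 0 := by
      intro ha; apply hdet; rw [hc, ha]; ring
    have hG := good_smul470 (good_upper470 good_one470 (γ 0 0 / γ 1 1) (γ 0 1 / γ 1 1)
      (div_ne_zero ha he)) (γ 1 1) he
    have heq : γ 1 1 • (!![γ 0 0 / γ 1 1, γ 0 1 / γ 1 1; 0, 1]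
        * (1 : Matrix (Fin 2) (Fin 2) ℂ)) = γ := by
      ext i j
      fin_cases i <;> fin_cases j <;> simp [hc] <;> field_simp
    rw [heq] at hG
    exact hG.2
  · -- big cell
    have hδ : (γ 0 0 * γ 1 1 - γ 0 1 * γ 1 0) / γ 1 0 ^ 2 ≠ 0 :=
      div_ne_zero hdet (pow_ne_zero 2 hc)
    have hG := good_smul470 (good_upper470 (good_upper470 (good_inv470
      (good_upper470 good_one470 1 (γ 1 1 / γ 1 0) one_ne_zero))
      ((γ 0 0 * γ 1 1 - γ 0 1 * γ 1 0) / γ 1 0 ^ 2) 0 hδ) 1 (γ 0 0 / γ 1 0) one_ne_zero)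
      (γ 1 0) hc
    have heq : γ 1 0 • (!![1, γ 0 0 / γ 1 0; 0, 1]
        * (!![(γ 0 0 * γ 1 1 - γ 0 1 * γ 1 0) / γ 1 0 ^ 2, 0; 0, 1]
          * (!![0, -1; 1, 0] * (!![1, γ 1 1 / γ 1 0; 0, 1]
            * (1 : Matrix (Fin 2) (Fin 2) ℂ))))) = γ := by
      ext i j
      fin_cases i <;> fin_cases j <;>
        simp [Matrix.mul_apply, Fin.sum_univ_two] <;> field_simp <;> ring
    rw [heq] at hG
    exact hG.2

end Fermat.Agent.LT.H470
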