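import Mathlib

/-!
# Row LT, tower A2, pre-leaf ARCH-MVP (helper470): parametric interval integrals

Mathlib only.  Differentiation under the integral sign and change of order of integration for
JOINTLY CONTINUOUS integrands on compact intervals (no domination hypotheses left to the user).
-/

set_option autoImplicit false

open MeasureTheory Set Filter Topology

namespace Fermat.Agent.LT.H470

/-- Differentiation under an interval integral for jointly continuous data. -/
theorem hasDerivAt_intervalIntegral470 {G G' : ℝ → ℝ → ℂ}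
    (hG : Continuous (Function.uncurry G)) (hG' : Continuous (Function.uncurry G'))
    (hd : ∀ x t, HasDerivAt (fun x => G x t) (G' x t) x) (a b x₀ : ℝ) :
    HasDerivAt (fun x => ∫ t in a..b, G x t) (∫ t in a..b, G' x₀ t) x₀ := by
  have hK : IsCompact (Icc (x₀ - 1) (x₀ + 1) ×ˢ uIcc a b) := isCompact_Icc.prod isCompact_uIcc
  obtain ⟨C, hC⟩ := hK.exists_bound_of_continuousOn hG'.continuousOn
  have key := intervalIntegral.hasDerivAt_integral_of_dominated_loc_of_deriv_le (μ := volume)
    (F := G) (F' := G') (x₀ := x₀) (a := a) (b := b) (bound := fun _ => C)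
    (s := Icc (x₀ - 1) (x₀ + 1)) (Icc_mem_nhds (by linarith) (by linarith))
    (Eventually.of_forall fun x =>
      (hG.comp (Continuous.prodMk_right x)).aestronglyMeasurable)
    ((hG.comp (Continuous.prodMk_right x₀)).intervalIntegrable a b)
    ((hG'.comp (Continuous.prodMk_right x₀)).aestronglyMeasurable)
    (Eventually.of_forall fun t ht x hx => hC (x, t) ⟨hx, uIoc_subset_uIcc ht⟩)
    intervalIntegrable_const
    (Eventually.of_forall fun t _ x _ => hd x t)
  exact key.2

/-- Joint continuity of an inner integral in the two remaining variables. -/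
theorem continuous_inner470 {H : ℝ → ℝ → ℝ → ℂ}
    (hH : Continuous (fun q : ℝ × ℝ × ℝ => H q.1 q.2.1 q.2.2)) (c e : ℝ) :
    Continuous (Function.uncurry (fun d α => ∫ β in c..e, H d β α)) := by
  have h1 : Continuous (Function.uncurry (fun (p : ℝ × ℝ) (β : ℝ) => H p.1 β p.2)) := by
    have : (Function.uncurry (fun (p : ℝ × ℝ) (β : ℝ) => H p.1 β p.2))
        = (fun q : ℝ × ℝ × ℝ => H q.1 q.2.1 q.2.2) ∘
          (fun r : (ℝ × ℝ) × ℝ => (r.1.1, r.2, r.1.2)) := by
      ext r; rfl
    rw [this]
    exact hH.comp (by fun_prop)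
  have h2 := intervalIntegral.continuous_parametric_intervalIntegral_of_continuous'
    (μ := volume) h1 c e
  have : (Function.uncurry (fun d α => ∫ β in c..e, H d β α))
      = fun p : ℝ × ℝ => ∫ β in c..e, H p.1 β p.2 := by
    ext p; rfl
  rw [this]
  exact h2

/-- Differentiation of a double interval integral with respect to a parameter. -/
theorem hasDerivAt_double470 {H H' : ℝ → ℝ → ℝ → ℂ}
    (hH : Continuous (fun q : ℝ × ℝ × ℝ => H q.1 q.2.1 q.2.2))
    (hH' : Continuous (fun q : ℝ × ℝ × ℝ => H' q.1 q.2.1 q.2.2))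
    (hd : ∀ d β α, HasDerivAt (fun x => H x β α) (H' d β α) d) (a b c e d₀ : ℝ) :
    HasDerivAt (fun d => ∫ α in a..b, ∫ β in c..e, H d β α)
      (∫ α in a..b, ∫ β in c..e, H' d₀ β α) d₀ := by
  refine hasDerivAt_intervalIntegral470 (G := fun d α => ∫ β in c..e, H d β α)
    (G' := fun d α => ∫ β in c..e, H' d β α) (continuous_inner470 hH c e)
    (continuous_inner470 hH' c e) ?_ a b d₀
  intro d α
  refine hasDerivAt_intervalIntegral470 (G := fun d β => H d β α)
    (G' := fun d β => H' d β α) ?_ ?_ (fun x t => hd x t α) c e d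
  · have : (Function.uncurry fun d β => H d β α)
        = (fun q : ℝ × ℝ × ℝ => H q.1 q.2.1 q.2.2) ∘ (fun r : ℝ × ℝ => (r.1, r.2, α)) := by
      ext r; rfl
    rw [this]; exact hH.comp (by fun_prop)
  · have : (Function.uncurry fun d β => H' d β α)
        = (fun q : ℝ × ℝ × ℝ => H' q.1 q.2.1 q.2.2) ∘ (fun r : ℝ × ℝ => (r.1, r.2, α)) := by
      ext r; rfl
    rw [this]; exact hH'.comp (by fun_prop)

/-- Fubini on a rectangle for a jointly continuous integrand. -/
theorem intervalIntegral_swap470 {K : ℝ → ℝ → ℂ} (hK : Continuous (Function.uncurry K))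
    (a b c e : ℝ) :
    ∫ α in a..b, ∫ β in c..e, K α β = ∫ β in c..e, ∫ α in a..b, K α β := by
  apply MeasureTheory.intervalIntegral_intervalIntegral_swap
  have hcomp : IsCompact (uIcc a b ×ˢ uIcc c e) := isCompact_uIcc.prod isCompact_uIcc
  exact (hK.continuousOn.integrableOn_compact hcomp).mono_set
    (Set.prod_mono uIoc_subset_uIcc uIoc_subset_uIcc)

end Fermat.Agent.LT.H470
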