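import Mathlib

/-!
# Row LT, tower A2, pre-leaf ARCH-MVP (helper470): geodesic polar coordinates on `ℍ³`

Mathlib only.  The point `polarPt d β α = (rotZ α * rotY β * torus d) • j` of the upper half-space
`ℍ³ = {(x₁, x₂, y) : y > 0}` (`j = (0, 0, 1)`; the matrices are those of
`Fermat.Agent.LT.H556.A0`), i.e.

    x₁ + i x₂ = e^{iα} sinh d sin β / (cosh d - sinh d cos β),   y = 1 / (cosh d - sinh d cos β),

with its first and second derivatives along the three coordinate curves.
-/

set_option autoImplicit false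

open Real

noncomputable section

namespace Fermat.Agent.LT.H470

/-- `cosh d - sinh d cos β`. -/
def pden (d β : ℝ) : ℝ := cosh d - sinh d * cos β

/-- `sinh d - cosh d cos β`, the `d`-derivative of `pden`. -/
def pdd (d β : ℝ) : ℝ := sinh d - cosh d * cos β

theorem pden_pos470 (d β : ℝ) : 0 < pden d β := by
  unfold pden
  have hC : cosh d ^ 2 = sinh d ^ 2 + 1 := Real.cosh_sq d
  have hC0 : 0 < cosh d := Real.cosh_pos d
  have hc : cos β ^ 2 ≤ 1 := Real.cos_sq_le_one β
  by_contra h
  rw [not_lt] at h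
  have h1 : cosh d ≤ sinh d * cos β := by linarith
  have h2 : cosh d ^ 2 ≤ (sinh d * cos β) ^ 2 := by
    apply pow_le_pow_left₀ hC0.le h1
  have h3 : (sinh d * cos β) ^ 2 ≤ sinh d ^ 2 := by
    rw [mul_pow]
    calc sinh d ^ 2 * cos β ^ 2 ≤ sinh d ^ 2 * 1 :=
          mul_le_mul_of_nonneg_left hc (sq_nonneg _)
      _ = sinh d ^ 2 := mul_one _
  linarith

theorem pden_ne470 (d β : ℝ) : pden d β ≠ 0 := (pden_pos470 d β).ne'

/-- First coordinate of the polar point. -/
def PX1 (d β α : ℝ) : ℝ := sinh d * sin β * cos α / pden d β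
/-- Second coordinate of the polar point. -/
def PX2 (d β α : ℝ) : ℝ := sinh d * sin β * sin α / pden d β
/-- Height of the polar point. -/
def PY (d β : ℝ) : ℝ := 1 / pden d β

/-- The point of `ℍ³` with geodesic polar coordinates `(d, β, α)` around `j = (0,0,1)`. -/
def polarPt (d β α : ℝ) : ℝ × ℝ × ℝ := (PX1 d β α, PX2 d β α, PY d β)

theorem polarPt_zero470 (β α : ℝ) : polarPt 0 β α = (0, 0, 1) := by
  simp [polarPt, PX1, PX2, PY, pden]

theorem polarPt_height_pos470 (d β α : ℝ) : 0 < (polarPt d β α).2.2 := by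
  simp only [polarPt, PY]
  exact one_div_pos.mpr (pden_pos470 d β)

/-! ## Derivative vectors -/

/-- `∂/∂d`. -/
def Pd (d β α : ℝ) : ℝ × ℝ × ℝ :=
  (sin β * cos α / pden d β ^ 2, sin β * sin α / pden d β ^ 2, -pdd d β / pden d β ^ 2)

/-- `∂²/∂d²`. -/
def Pdd (d β α : ℝ) : ℝ × ℝ × ℝ :=
  (-2 * sin β * cos α * pdd d β / pden d β ^ 3, -2 * sin β * sin α * pdd d β / pden d β ^ 3,
    -1 / pden d β + 2 * pdd d β ^ 2 / pden d β ^ 3)

/-- `∂/∂β`. -/
def Pb (d β α : ℝ) : ℝ × ℝ × ℝ :=
  (sinh d * cos α * (cosh d * cos β - sinh d) / pden d β ^ 2,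
    sinh d * sin α * (cosh d * cos β - sinh d) / pden d β ^ 2,
    -(sinh d * sin β) / pden d β ^ 2)

/-- `∂²/∂β²`. -/
def Pbb (d β α : ℝ) : ℝ × ℝ × ℝ :=
  (sinh d * cos α *
      (-(sin β * cosh d * pden d β) - 2 * sinh d * sin β * (cosh d * cos β - sinh d))
      / pden d β ^ 3,
    sinh d * sin α *
      (-(sin β * cosh d * pden d β) - 2 * sinh d * sin β * (cosh d * cos β - sinh d))
      / pden d β ^ 3,
    -(sinh d * cos β) / pden d β ^ 2 + 2 * sinh d ^ 2 * sin β ^ 2 / pden d β ^ 3)

/-- `∂/∂α`. -/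
def Pa (d β α : ℝ) : ℝ × ℝ × ℝ := (-PX2 d β α, PX1 d β α, 0)

/-- `∂²/∂α²`. -/
def Paa (d β α : ℝ) : ℝ × ℝ × ℝ := (-PX1 d β α, -PX2 d β α, 0)

/-! ## Derivatives of the denominators -/

theorem hasDerivAt_pden_d470 (d β : ℝ) : HasDerivAt (fun t => pden t β) (pdd d β) d := by
  unfold pden pdd
  exact (Real.hasDerivAt_cosh d).sub ((Real.hasDerivAt_sinh d).mul_const (cos β))

theorem hasDerivAt_pdd_d470 (d β : ℝ) : HasDerivAt (fun t => pdd t β) (pden d β) d := by
  unfold pden pdd
  exact (Real.hasDerivAt_sinh d).sub ((Real.hasDerivAt_cosh d).mul_const (cos β))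

theorem hasDerivAt_pden_b470 (d β : ℝ) :
    HasDerivAt (fun t => pden d t) (sinh d * sin β) β := by
  unfold pden
  have h := ((Real.hasDerivAt_cos β).const_mul (sinh d)).const_sub (cosh d)
  refine h.congr_deriv ?_
  ring

/-! ## The `d`-curve -/

theorem hasDerivAt_polarPt_d470 (d β α : ℝ) :
    HasDerivAt (fun t => polarPt t β α) (Pd d β α) d := by
  have hD := hasDerivAt_pden_d470 d β
  have hD0 := pden_ne470 d β
  have hC : cosh d ^ 2 = sinh d ^ 2 + 1 := Real.cosh_sq d
  have h1 : HasDerivAt (fun t => PX1 t β α) (sin β * cos α / pden d β ^ 2) d := by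
    unfold PX1
    have h := (((Real.hasDerivAt_sinh d).mul_const (sin β)).mul_const (cos α)).div hD hD0
    refine h.congr_deriv ?_
    unfold pden pdd at *
    field_simp
    grind
  have h2 : HasDerivAt (fun t => PX2 t β α) (sin β * sin α / pden d β ^ 2) d := by
    unfold PX2
    have h := (((Real.hasDerivAt_sinh d).mul_const (sin β)).mul_const (sin α)).div hD hD0
    refine h.congr_deriv ?_
    unfold pden pdd at *
    field_simp
    grind
  have h3 : HasDerivAt (fun t => PY t β) (-pdd d β / pden d β ^ 2) d := by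
    unfold PY
    have h := (hasDerivAt_const d (1 : ℝ)).div hD hD0
    refine h.congr_deriv ?_
    field_simp
    ring
  exact h1.prodMk (h2.prodMk h3)

theorem hasDerivAt_Pd_d470 (d β α : ℝ) :
    HasDerivAt (fun t => Pd t β α) (Pdd d β α) d := by
  have hD := hasDerivAt_pden_d470 d β
  have hDd := hasDerivAt_pdd_d470 d β
  have hD0 := pden_ne470 d β
  have hD2 : HasDerivAt (fun t => pden t β ^ 2) (2 * pden d β * pdd d β) d := by
    have h := hD.pow 2
    refine h.congr_deriv ?_
    ring
  have hD20 : pden d β ^ 2 ≠ 0 := pow_ne_zero _ hD0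
  have h1 : HasDerivAt (fun t => sin β * cos α / pden t β ^ 2)
      (-2 * sin β * cos α * pdd d β / pden d β ^ 3) d := by
    have h := (hasDerivAt_const d (sin β * cos α)).div hD2 hD20
    refine h.congr_deriv ?_
    field_simp
    ring
  have h2 : HasDerivAt (fun t => sin β * sin α / pden t β ^ 2)
      (-2 * sin β * sin α * pdd d β / pden d β ^ 3) d := by
    have h := (hasDerivAt_const d (sin β * sin α)).div hD2 hD20
    refine h.congr_deriv ?_
    field_simp
    ring
  have h3 : HasDerivAt (fun t => -pdd t β / pden t β ^ 2)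
      (-1 / pden d β + 2 * pdd d β ^ 2 / pden d β ^ 3) d := by
    have h := hDd.neg.div hD2 hD20
    refine h.congr_deriv ?_
    simp only [Pi.neg_apply]
    field_simp
    ring
  exact h1.prodMk (h2.prodMk h3)


/-! ## The `β`-curve -/

theorem hasDerivAt_polarPt_b470 (d β α : ℝ) :
    HasDerivAt (fun t => polarPt d t α) (Pb d β α) β := by
  have hD := hasDerivAt_pden_b470 d β
  have hD0 := pden_ne470 d β
  have hs : sin β ^ 2 + cos β ^ 2 = 1 := Real.sin_sq_add_cos_sq β
  have h1 : HasDerivAt (fun t => PX1 d t α)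
      (sinh d * cos α * (cosh d * cos β - sinh d) / pden d β ^ 2) β := by
    unfold PX1
    have h := (((Real.hasDerivAt_sin β).const_mul (sinh d)).mul_const (cos α)).div hD hD0
    refine h.congr_deriv ?_
    unfold pden at *
    field_simp
    grind
  have h2 : HasDerivAt (fun t => PX2 d t α)
      (sinh d * sin α * (cosh d * cos β - sinh d) / pden d β ^ 2) β := by
    unfold PX2
    have h := (((Real.hasDerivAt_sin β).const_mul (sinh d)).mul_const (sin α)).div hD hD0
    refine h.congr_deriv ?_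
    unfold pden at *
    field_simp
    grind
  have h3 : HasDerivAt (fun t => PY d t) (-(sinh d * sin β) / pden d β ^ 2) β := by
    unfold PY
    have h := (hasDerivAt_const β (1 : ℝ)).div hD hD0
    refine h.congr_deriv ?_
    field_simp
    ring
  exact h1.prodMk (h2.prodMk h3)

theorem hasDerivAt_Pb_b470 (d β α : ℝ) :
    HasDerivAt (fun t => Pb d t α) (Pbb d β α) β := by
  have hD := hasDerivAt_pden_b470 d β
  have hD0 := pden_ne470 d β
  have hD2 : HasDerivAt (fun t => pden d t ^ 2) (2 * pden d β * (sinh d * sin β)) β := by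
    have h := hD.pow 2
    refine h.congr_deriv ?_
    ring
  have hD20 : pden d β ^ 2 ≠ 0 := pow_ne_zero _ hD0
  have hN : HasDerivAt (fun t => cosh d * cos t - sinh d) (-(cosh d * sin β)) β := by
    have h := ((Real.hasDerivAt_cos β).const_mul (cosh d)).sub_const (sinh d)
    refine h.congr_deriv ?_
    ring
  have h1 : HasDerivAt (fun t => sinh d * cos α * (cosh d * cos t - sinh d) / pden d t ^ 2)
      (sinh d * cos α *
        (-(sin β * cosh d * pden d β) - 2 * sinh d * sin β * (cosh d * cos β - sinh d))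
        / pden d β ^ 3) β := by
    have h := (hN.const_mul (sinh d * cos α)).div hD2 hD20
    refine h.congr_deriv ?_
    field_simp
  have h2 : HasDerivAt (fun t => sinh d * sin α * (cosh d * cos t - sinh d) / pden d t ^ 2)
      (sinh d * sin α *
        (-(sin β * cosh d * pden d β) - 2 * sinh d * sin β * (cosh d * cos β - sinh d))
        / pden d β ^ 3) β := by
    have h := (hN.const_mul (sinh d * sin α)).div hD2 hD20
    refine h.congr_deriv ?_
    field_simp
  have h3 : HasDerivAt (fun t => -(sinh d * sin t) / pden d t ^ 2)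
      (-(sinh d * cos β) / pden d β ^ 2 + 2 * sinh d ^ 2 * sin β ^ 2 / pden d β ^ 3) β := by
    have h := ((Real.hasDerivAt_sin β).const_mul (sinh d)).neg.div hD2 hD20
    refine h.congr_deriv ?_
    simp only [Pi.neg_apply]
    field_simp
    ring
  exact h1.prodMk (h2.prodMk h3)

/-! ## The `α`-curve -/

theorem hasDerivAt_polarPt_a470 (d β α : ℝ) :
    HasDerivAt (fun t => polarPt d β t) (Pa d β α) α := by
  have h1 : HasDerivAt (fun t => PX1 d β t) (-PX2 d β α) α := by
    unfold PX1 PX2
    have h := ((Real.hasDerivAt_cos α).const_mul (sinh d * sin β)).div_const (pden d β)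
    refine h.congr_deriv ?_
    ring
  have h2 : HasDerivAt (fun t => PX2 d β t) (PX1 d β α) α := by
    unfold PX1 PX2
    have h := ((Real.hasDerivAt_sin α).const_mul (sinh d * sin β)).div_const (pden d β)
    exact h
  have h3 : HasDerivAt (fun _ : ℝ => PY d β) 0 α := hasDerivAt_const α _
  exact h1.prodMk (h2.prodMk h3)

theorem hasDerivAt_Pa_a470 (d β α : ℝ) :
    HasDerivAt (fun t => Pa d β t) (Paa d β α) α := by
  have h1 : HasDerivAt (fun t => PX1 d β t) (-PX2 d β α) α := by
    unfold PX1 PX2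
    have h := ((Real.hasDerivAt_cos α).const_mul (sinh d * sin β)).div_const (pden d β)
    refine h.congr_deriv ?_
    ring
  have h2 : HasDerivAt (fun t => PX2 d β t) (PX1 d β α) α := by
    unfold PX1 PX2
    have h := ((Real.hasDerivAt_sin α).const_mul (sinh d * sin β)).div_const (pden d β)
    exact h
  have h3 : HasDerivAt (fun _ : ℝ => (0 : ℝ)) 0 α := hasDerivAt_const α _
  exact h2.neg.prodMk (h1.prodMk h3)

/-! ## Continuity -/

theorem continuous_pden470 : Continuous (fun q : ℝ × ℝ × ℝ => pden q.1 q.2.1) := by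
  unfold pden
  fun_prop

theorem continuous_pdd470 : Continuous (fun q : ℝ × ℝ × ℝ => pdd q.1 q.2.1) := by
  unfold pdd
  fun_prop

theorem continuous_polarPt470 :
    Continuous (fun q : ℝ × ℝ × ℝ => polarPt q.1 q.2.1 q.2.2) := by
  unfold polarPt PX1 PX2 PY pden
  fun_prop (disch := exact fun q => pden_ne470 _ _)

theorem continuous_Pd470 : Continuous (fun q : ℝ × ℝ × ℝ => Pd q.1 q.2.1 q.2.2) := by
  unfold Pd pdd pden
  fun_prop (disch := exact fun q => pow_ne_zero _ (pden_ne470 _ _))

theorem continuous_Pdd470 : Continuous (fun q : ℝ × ℝ × ℝ => Pdd q.1 q.2.1 q.2.2) := by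
  unfold Pdd pdd pden
  fun_prop (disch := first
    | exact fun q => pow_ne_zero _ (pden_ne470 _ _)
    | exact fun q => pden_ne470 _ _)

theorem continuous_Pb470 : Continuous (fun q : ℝ × ℝ × ℝ => Pb q.1 q.2.1 q.2.2) := by
  unfold Pb pden
  fun_prop (disch := exact fun q => pow_ne_zero _ (pden_ne470 _ _))

theorem continuous_Pbb470 : Continuous (fun q : ℝ × ℝ × ℝ => Pbb q.1 q.2.1 q.2.2) := by
  unfold Pbb pden
  fun_prop (disch := exact fun q => pow_ne_zero _ (pden_ne470 _ _))

theorem continuous_Pa470 : Continuous (fun q : ℝ × ℝ × ℝ => Pa q.1 q.2.1 q.2.2) := by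
  unfold Pa PX1 PX2 pden
  fun_prop (disch := exact fun q => pden_ne470 _ _)

theorem continuous_Paa470 : Continuous (fun q : ℝ × ℝ × ℝ => Paa q.1 q.2.1 q.2.2) := by
  unfold Paa PX1 PX2 pden
  fun_prop (disch := exact fun q => pden_ne470 _ _)

/-! ## Periodicity in `α` -/

theorem polarPt_two_pi470 (d β : ℝ) : polarPt d β (2 * π) = polarPt d β 0 := by
  simp [polarPt, PX1, PX2]

theorem Pa_two_pi470 (d β : ℝ) : Pa d β (2 * π) = Pa d β 0 := by
  simp [Pa, PX1, PX2]

end Fermat.Agent.LT.H470
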