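import Fermat.Agent.LT.H470.Chain

/-!
# Row LT, tower A2, pre-leaf ARCH-MVP (helper470): pull-back of eigenfunctions by isometries

Mathlib only.  `ConfMap470 Φ Φ' Φ''`: a twice differentiable self-map of the upper half-space of
`ℝ³` which is an isometry of the hyperbolic metric in the infinitesimal form needed here
(`y² J Jᵀ = Y² · 1` and `y² ΔΦ - y ∂_y Φ = (0, 0, -Y)`, `Y` the height of `Φ p`).  Such a map pulls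
solutions of the hyperbolic Laplace equation back to solutions (`EigenData470.pullback`).
-/

set_option autoImplicit false

open Real

noncomputable section

namespace Fermat.Agent.LT.H470

/-- A twice differentiable self-map of the upper half-space which preserves the hyperbolic
Laplacian (infinitesimal form). -/
structure ConfMap470 (Φ : E3 → E3) (Φ' : E3 → E3 →L[ℝ] E3)
    (Φ'' : E3 → E3 →L[ℝ] E3 →L[ℝ] E3) : Prop where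
  maps : ∀ p : E3, 0 < p.2.2 → 0 < (Φ p).2.2
  d1 : ∀ p : E3, 0 < p.2.2 → HasFDerivAt Φ (Φ' p) p
  d2 : ∀ p : E3, 0 < p.2.2 → HasFDerivAt Φ' (Φ'' p) p
  cont : ContinuousOn Φ'' {p : E3 | 0 < p.2.2}
  conf11 : ∀ p : E3, 0 < p.2.2 → p.2.2 ^ 2 * ((Φ' p e1).1 * (Φ' p e1).1
    + (Φ' p e2).1 * (Φ' p e2).1 + (Φ' p e3).1 * (Φ' p e3).1) = (Φ p).2.2 ^ 2
  conf22 : ∀ p : E3, 0 < p.2.2 → p.2.2 ^ 2 * ((Φ' p e1).2.1 * (Φ' p e1).2.1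
    + (Φ' p e2).2.1 * (Φ' p e2).2.1 + (Φ' p e3).2.1 * (Φ' p e3).2.1) = (Φ p).2.2 ^ 2
  conf33 : ∀ p : E3, 0 < p.2.2 → p.2.2 ^ 2 * ((Φ' p e1).2.2 * (Φ' p e1).2.2
    + (Φ' p e2).2.2 * (Φ' p e2).2.2 + (Φ' p e3).2.2 * (Φ' p e3).2.2) = (Φ p).2.2 ^ 2
  conf12 : ∀ p : E3, 0 < p.2.2 → p.2.2 ^ 2 * ((Φ' p e1).1 * (Φ' p e1).2.1
    + (Φ' p e2).1 * (Φ' p e2).2.1 + (Φ' p e3).1 * (Φ' p e3).2.1) = 0
  conf13 : ∀ p : E3, 0 < p.2.2 → p.2.2 ^ 2 * ((Φ' p e1).1 * (Φ' p e1).2.2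
    + (Φ' p e2).1 * (Φ' p e2).2.2 + (Φ' p e3).1 * (Φ' p e3).2.2) = 0
  conf23 : ∀ p : E3, 0 < p.2.2 → p.2.2 ^ 2 * ((Φ' p e1).2.1 * (Φ' p e1).2.2
    + (Φ' p e2).2.1 * (Φ' p e2).2.2 + (Φ' p e3).2.1 * (Φ' p e3).2.2) = 0
  lap1 : ∀ p : E3, 0 < p.2.2 → p.2.2 ^ 2 * ((Φ'' p e1 e1).1 + (Φ'' p e2 e2).1
    + (Φ'' p e3 e3).1) - p.2.2 * (Φ' p e3).1 = 0
  lap2 : ∀ p : E3, 0 < p.2.2 → p.2.2 ^ 2 * ((Φ'' p e1 e1).2.1 + (Φ'' p e2 e2).2.1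
    + (Φ'' p e3 e3).2.1) - p.2.2 * (Φ' p e3).2.1 = 0
  lap3 : ∀ p : E3, 0 < p.2.2 → p.2.2 ^ 2 * ((Φ'' p e1 e1).2.2 + (Φ'' p e2 e2).2.2
    + (Φ'' p e3 e3).2.2) - p.2.2 * (Φ' p e3).2.2 = -(Φ p).2.2

section Pull

variable (f' : E3 → E3 →L[ℝ] ℂ) (f'' : E3 → E3 →L[ℝ] E3 →L[ℝ] ℂ)
  (Φ : E3 → E3) (Φ' : E3 → E3 →L[ℝ] E3) (Φ'' : E3 → E3 →L[ℝ] E3 →L[ℝ] E3)

/-- First derivative of `f ∘ Φ`. -/
def pull1 (p : E3) : E3 →L[ℝ] ℂ := (f' (Φ p)).comp (Φ' p)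

/-- Second derivative of `f ∘ Φ`. -/
def pull2 (p : E3) : E3 →L[ℝ] E3 →L[ℝ] ℂ :=
  ((ContinuousLinearMap.compL ℝ E3 E3 ℂ) (f' (Φ p))).comp (Φ'' p)
    + ((ContinuousLinearMap.compL ℝ E3 E3 ℂ).flip (Φ' p)).comp ((f'' (Φ p)).comp (Φ' p))

theorem pull2_apply470 (p u v : E3) :
    pull2 f' f'' Φ Φ' Φ'' p u v
      = f' (Φ p) (Φ'' p u v) + f'' (Φ p) (Φ' p u) (Φ' p v) := by
  simp [pull2]

end Pull

variable {f : E3 → ℂ} {f' : E3 → E3 →L[ℝ] ℂ} {f'' : E3 → E3 →L[ℝ] E3 →L[ℝ] ℂ}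
  {Φ : E3 → E3} {Φ' : E3 → E3 →L[ℝ] E3} {Φ'' : E3 → E3 →L[ℝ] E3 →L[ℝ] E3}

theorem ConfMap470.continuousOn_Φ (hΦ : ConfMap470 Φ Φ' Φ'') :
    ContinuousOn Φ {p : E3 | 0 < p.2.2} :=
  fun p hp => (hΦ.d1 p hp).continuousAt.continuousWithinAt

theorem ConfMap470.continuousOn_Φ' (hΦ : ConfMap470 Φ Φ' Φ'') :
    ContinuousOn Φ' {p : E3 | 0 < p.2.2} :=
  fun p hp => (hΦ.d2 p hp).continuousAt.continuousWithinAt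

/-- **Pull-back of a solution by an isometry.** -/
theorem EigenData470.pullback (h : EigenData470 f f' f'') (hΦ : ConfMap470 Φ Φ' Φ'') :
    EigenData470 (f ∘ Φ) (pull1 f' Φ Φ') (pull2 f' f'' Φ Φ' Φ'') where
  d1 := fun p hp => (h.d1 (Φ p) (hΦ.maps p hp)).comp p (hΦ.d1 p hp)
  d2 := fun p hp => by
    have h1 : HasFDerivAt (fun q => f' (Φ q)) ((f'' (Φ p)).comp (Φ' p)) p :=
      (h.d2 (Φ p) (hΦ.maps p hp)).comp p (hΦ.d1 p hp)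
    have h2 := h1.clm_comp (hΦ.d2 p hp)
    exact h2
  cont := by
    have hmaps : Set.MapsTo Φ {p : E3 | 0 < p.2.2} {p : E3 | 0 < p.2.2} :=
      fun p hp => hΦ.maps p hp
    have c1 : ContinuousOn (fun p => f' (Φ p)) {p : E3 | 0 < p.2.2} :=
      h.continuousOn_f'.comp hΦ.continuousOn_Φ hmaps
    have c2 : ContinuousOn (fun p => f'' (Φ p)) {p : E3 | 0 < p.2.2} :=
      h.cont.comp hΦ.continuousOn_Φ hmaps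
    have c3 := hΦ.continuousOn_Φ'
    have c4 := hΦ.cont
    have a1 : ContinuousOn (fun p => (ContinuousLinearMap.compL ℝ E3 E3 ℂ) (f' (Φ p)))
        {p : E3 | 0 < p.2.2} :=
      (ContinuousLinearMap.compL ℝ E3 E3 ℂ).continuous.comp_continuousOn c1
    have a2 : ContinuousOn
        (fun p => ((ContinuousLinearMap.compL ℝ E3 E3 ℂ) (f' (Φ p))).comp (Φ'' p))
        {p : E3 | 0 < p.2.2} := a1.clm_comp c4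
    have b1 : ContinuousOn (fun p => (ContinuousLinearMap.compL ℝ E3 E3 ℂ).flip (Φ' p))
        {p : E3 | 0 < p.2.2} :=
      (ContinuousLinearMap.compL ℝ E3 E3 ℂ).flip.continuous.comp_continuousOn c3
    have b2 : ContinuousOn (fun p => (f'' (Φ p)).comp (Φ' p)) {p : E3 | 0 < p.2.2} :=
      c2.clm_comp c3
    have b3 : ContinuousOn
        (fun p => ((ContinuousLinearMap.compL ℝ E3 E3 ℂ).flip (Φ' p)).comp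
          ((f'' (Φ p)).comp (Φ' p))) {p : E3 | 0 < p.2.2} := b1.clm_comp b2
    exact a2.add b3
  pde := fun p hp => by
    have hpde := h.pde (Φ p) (hΦ.maps p hp)
    have k11 : (((p.2.2 ^ 2 * ((Φ' p e1).1 * (Φ' p e1).1
      + (Φ' p e2).1 * (Φ' p e2).1 + (Φ' p e3).1 * (Φ' p e3).1) : ℝ) : ℂ))
        = (((Φ p).2.2 ^ 2 : ℝ) : ℂ) := by rw [hΦ.conf11 p hp]
    have k22 : (((p.2.2 ^ 2 * ((Φ' p e1).2.1 * (Φ' p e1).2.1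
      + (Φ' p e2).2.1 * (Φ' p e2).2.1 + (Φ' p e3).2.1 * (Φ' p e3).2.1) : ℝ) : ℂ))
        = (((Φ p).2.2 ^ 2 : ℝ) : ℂ) := by rw [hΦ.conf22 p hp]
    have k33 : (((p.2.2 ^ 2 * ((Φ' p e1).2.2 * (Φ' p e1).2.2
      + (Φ' p e2).2.2 * (Φ' p e2).2.2 + (Φ' p e3).2.2 * (Φ' p e3).2.2) : ℝ) : ℂ))
        = (((Φ p).2.2 ^ 2 : ℝ) : ℂ) := by rw [hΦ.conf33 p hp]
    have k12 : (((p.2.2 ^ 2 * ((Φ' p e1).1 * (Φ' p e1).2.1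
      + (Φ' p e2).1 * (Φ' p e2).2.1 + (Φ' p e3).1 * (Φ' p e3).2.1) : ℝ) : ℂ))
        = ((0 : ℝ) : ℂ) := by rw [hΦ.conf12 p hp]
    have k13 : (((p.2.2 ^ 2 * ((Φ' p e1).1 * (Φ' p e1).2.2
      + (Φ' p e2).1 * (Φ' p e2).2.2 + (Φ' p e3).1 * (Φ' p e3).2.2) : ℝ) : ℂ))
        = ((0 : ℝ) : ℂ) := by rw [hΦ.conf13 p hp]
    have k23 : (((p.2.2 ^ 2 * ((Φ' p e1).2.1 * (Φ' p e1).2.2
      + (Φ' p e2).2.1 * (Φ' p e2).2.2 + (Φ' p e3).2.1 * (Φ' p e3).2.2) : ℝ) : ℂ))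
        = ((0 : ℝ) : ℂ) := by rw [hΦ.conf23 p hp]
    have l1 : (((p.2.2 ^ 2 * ((Φ'' p e1 e1).1 + (Φ'' p e2 e2).1
      + (Φ'' p e3 e3).1) - p.2.2 * (Φ' p e3).1 : ℝ) : ℂ)) = ((0 : ℝ) : ℂ) := by
      rw [hΦ.lap1 p hp]
    have l2 : (((p.2.2 ^ 2 * ((Φ'' p e1 e1).2.1 + (Φ'' p e2 e2).2.1
      + (Φ'' p e3 e3).2.1) - p.2.2 * (Φ' p e3).2.1 : ℝ) : ℂ)) = ((0 : ℝ) : ℂ) := by
      rw [hΦ.lap2 p hp]
    have l3 : (((p.2.2 ^ 2 * ((Φ'' p e1 e1).2.2 + (Φ'' p e2 e2).2.2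
      + (Φ'' p e3 e3).2.2) - p.2.2 * (Φ' p e3).2.2 : ℝ) : ℂ)) = ((-(Φ p).2.2 : ℝ) : ℂ) := by
      rw [hΦ.lap3 p hp]
    push_cast at k11 k22 k33 k12 k13 k23 l1 l2 l3
    simp only [pull2_apply470, pull1, ContinuousLinearMap.comp_apply, Function.comp_apply]
    rw [clm33_470 (f'' (Φ p)) (Φ' p e1) (Φ' p e1), clm33_470 (f'' (Φ p)) (Φ' p e2) (Φ' p e2),
      clm33_470 (f'' (Φ p)) (Φ' p e3) (Φ' p e3),
      clm3_470 (f' (Φ p)) (Φ'' p e1 e1), clm3_470 (f' (Φ p)) (Φ'' p e2 e2),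
      clm3_470 (f' (Φ p)) (Φ'' p e3 e3), clm3_470 (f' (Φ p)) (Φ' p e3)]
    linear_combination hpde + (f'' (Φ p) e1 e1) * k11 + (f'' (Φ p) e2 e2) * k22
      + (f'' (Φ p) e3 e3) * k33 + (f'' (Φ p) e1 e2 + f'' (Φ p) e2 e1) * k12
      + (f'' (Φ p) e1 e3 + f'' (Φ p) e3 e1) * k13
      + (f'' (Φ p) e2 e3 + f'' (Φ p) e3 e2) * k23
      + (f' (Φ p) e1) * l1 + (f' (Φ p) e2) * l2 + (f' (Φ p) e3) * l3

end Fermat.Agent.LT.H470
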